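import Mathlib

/-!
# S18, block D4c: the degree of `K(t)` over `K(R(t))` (Lüroth degree), generic

`F / K` a field extension, `t ∈ F` transcendental over `K`, `J ∈ F` with `J * D(t) = Rn(t)` for
coprime polynomials `Rn, D ∈ K[X]`.  Then `K(J) ≤ K(t)`,
`[K(t) : K(J)] = max (deg Rn) (deg D)` and hence
`[F : K(J)] = max (deg Rn) (deg D) * [F : K(t)]`.

This is Mathlib's `RatFunc.finrank_eq_max_natDegree` transported along
`RatFunc.algEquivOfTranscendental`.  It is used both in characteristic `0` (`K = ℚ̄`, `t` the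
Hauptmodul, `J = j`) and in characteristic `ℓ` (`K = k`, `t̄`, `j̄`).
-/

set_option autoImplicit false

namespace Fermat.Agent.S18.Haupt.DegreeOverT

open Polynomial IntermediateField

noncomputable section

variable {K F : Type*} [Field K] [Field F] [Algebra K F]

/-- the rational function `Rn / D`. -/
def ratOf (Rn D : K[X]) : RatFunc K :=
  algebraMap K[X] (RatFunc K) Rn / algebraMap K[X] (RatFunc K) D

theorem num_mul_eq_ratOf (Rn D : K[X]) (hD : D ≠ 0) :
    (ratOf Rn D).num * D = Rn * (ratOf Rn D).denom :=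
  (RatFunc.num_mul_eq_mul_denom_iff hD).mpr rfl

theorem natDegree_num_ratOf (Rn D : K[X]) (hcop : IsCoprime Rn D) (hD : D ≠ 0) :
    (ratOf Rn D).num.natDegree = Rn.natDegree := by
  have h := num_mul_eq_ratOf Rn D hD
  have hcop' := (ratOf Rn D).isCoprime_num_denom
  have h1 : Rn ∣ (ratOf Rn D).num :=
    hcop.dvd_of_dvd_mul_right (Dvd.intro _ h.symm)
  have h2 : (ratOf Rn D).num ∣ Rn :=
    hcop'.dvd_of_dvd_mul_right (Dvd.intro _ h)
  exact natDegree_eq_of_degree_eq (degree_eq_degree_of_associated (associated_of_dvd_dvd h2 h1))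

theorem natDegree_denom_ratOf (Rn D : K[X]) (hcop : IsCoprime Rn D) (hD : D ≠ 0) :
    (ratOf Rn D).denom.natDegree = D.natDegree := by
  have h := num_mul_eq_ratOf Rn D hD
  have hcop' := (ratOf Rn D).isCoprime_num_denom
  have h1 : D ∣ (ratOf Rn D).denom :=
    hcop.symm.dvd_of_dvd_mul_left (Dvd.intro_left _ h)
  have h2 : (ratOf Rn D).denom ∣ D :=
    hcop'.symm.dvd_of_dvd_mul_left (Dvd.intro_left _ h.symm)
  exact natDegree_eq_of_degree_eq (degree_eq_degree_of_associated (associated_of_dvd_dvd h2 h1))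

/-- `[K(X) : K(Rn/D)] = max (deg Rn) (deg D)` for coprime `Rn, D`. -/
theorem finrank_ratOf (Rn D : K[X]) (hcop : IsCoprime Rn D) (hD : D ≠ 0) :
    Module.finrank K⟮ratOf Rn D⟯ (RatFunc K) = max Rn.natDegree D.natDegree := by
  rw [RatFunc.finrank_eq_max_natDegree, natDegree_num_ratOf Rn D hcop hD,
    natDegree_denom_ratOf Rn D hcop hD]

variable (t J : F) (ht : Transcendental K t)

include ht in
theorem aeval_ne_zero_of_transcendental {D : K[X]} (hD : D ≠ 0) : aeval t D ≠ 0 := fun h =>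
  hD ((transcendental_iff.mp ht) D h)

/-- the embedding `K(X) → F`, `X ↦ t`. -/
def ratEmbT : RatFunc K →ₐ[K] F :=
  (K⟮t⟯.val).comp (RatFunc.algEquivOfTranscendental t ht).toAlgHom

theorem ratEmbT_X : ratEmbT t ht (RatFunc.X) = t := by
  show ((RatFunc.algEquivOfTranscendental t ht) RatFunc.X : F) = t
  rw [RatFunc.algEquivOfTranscendental_X]

theorem ratEmbT_algebraMap (p : K[X]) :
    ratEmbT t ht (algebraMap K[X] (RatFunc K) p) = aeval t p := by
  show ((RatFunc.algEquivOfTranscendental t ht) (algebraMap K[X] (RatFunc K) p) : F) = _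
  rw [RatFunc.algEquivOfTranscendental_algebraMap]
  exact (aeval_algHom_apply K⟮t⟯.val (AdjoinSimple.gen K t) p).symm

theorem fieldRange_ratEmbT : (ratEmbT t ht).fieldRange = K⟮t⟯ := by
  apply le_antisymm
  · rintro x ⟨y, rfl⟩
    exact ((RatFunc.algEquivOfTranscendental t ht) y).2
  · rw [adjoin_simple_le_iff]
    exact ⟨RatFunc.X, ratEmbT_X t ht⟩

theorem ratEmbT_ratOf (Rn D : K[X]) (hD : D ≠ 0) (hrel : J * aeval t D = aeval t Rn) :
    ratEmbT t ht (ratOf Rn D) = J := by
  rw [ratOf, map_div₀, ratEmbT_algebraMap, ratEmbT_algebraMap, ← hrel,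
    mul_div_assoc, div_self (aeval_ne_zero_of_transcendental t ht hD), mul_one]

include ht in
/-- `K(J) ≤ K(t)`. -/
theorem adjoin_le_adjoin (Rn D : K[X]) (hD : D ≠ 0) (hrel : J * aeval t D = aeval t Rn) :
    K⟮J⟯ ≤ K⟮t⟯ := by
  rw [adjoin_simple_le_iff, ← fieldRange_ratEmbT t ht]
  exact ⟨ratOf Rn D, ratEmbT_ratOf t J ht Rn D hD hrel⟩

include ht in
/-- **Lüroth degree**: `[K(t) : K(J)] = max (deg Rn) (deg D)`. -/
theorem relfinrank_eq (Rn D : K[X]) (hcop : IsCoprime Rn D) (hD : D ≠ 0)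
    (hrel : J * aeval t D = aeval t Rn) :
    relfinrank K⟮J⟯ K⟮t⟯ = max Rn.natDegree D.natDegree := by
  have h1 : (K⟮ratOf Rn D⟯).map (ratEmbT t ht) = K⟮J⟯ := by
    rw [adjoin_map, Set.image_singleton, ratEmbT_ratOf t J ht Rn D hD hrel]
  have h2 : (⊤ : IntermediateField K (RatFunc K)).map (ratEmbT t ht) = K⟮t⟯ := by
    rw [← AlgHom.fieldRange_eq_map, fieldRange_ratEmbT]
  rw [← h1, ← h2, relfinrank_map_map, relfinrank_top_right, finrank_ratOf Rn D hcop hD]

include ht in
/-- **Degree over `K(t)`**: `[F : K(J)] = max (deg Rn) (deg D) * [F : K(t)]`. -/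
theorem finrank_eq_mul (Rn D : K[X]) (hcop : IsCoprime Rn D) (hD : D ≠ 0)
    (hrel : J * aeval t D = aeval t Rn) :
    Module.finrank K⟮J⟯ F = max Rn.natDegree D.natDegree * Module.finrank K⟮t⟯ F := by
  rw [← relfinrank_eq t J ht Rn D hcop hD hrel,
    relfinrank_mul_finrank_top (adjoin_le_adjoin t J ht Rn D hD hrel)]

include ht in
/-- an intermediate field between `K(J)` and `K(t)` of full relative degree is `K(t)`. -/
theorem eq_adjoin_of_relfinrank (Rn D : K[X]) (hcop : IsCoprime Rn D) (hD : D ≠ 0)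
    (hrel : J * aeval t D = aeval t Rn) (hpos : 0 < max Rn.natDegree D.natDegree)
    (E : IntermediateField K F) (hJE : K⟮J⟯ ≤ E) (hEt : E ≤ K⟮t⟯)
    (hdeg : relfinrank K⟮J⟯ E = max Rn.natDegree D.natDegree) : E = K⟮t⟯ := by
  have h := relfinrank_mul_relfinrank hJE hEt
  rw [hdeg, relfinrank_eq t J ht Rn D hcop hD hrel] at h
  have h1 : relfinrank E K⟮t⟯ = 1 := by
    have := Nat.eq_of_mul_eq_mul_left hpos (h.trans (mul_one _).symm)
    exact this
  exact le_antisymm hEt (relfinrank_eq_one_iff.mp h1)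

end

end Fermat.Agent.S18.Haupt.DegreeOverT
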