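/-
S18, block D, leaf (D4a), part 1 (helper13): the Sturm identities on `Γ₀(2)` and `Γ₀(4)` behind the
Hauptmodul of `Γ₀(4)`, as identities of INTEGRAL power series.

With `B = 2 E₂(2z) - E₂(z) = 1 + 24 ∑ σ*(n) qⁿ ∈ M₂(Γ₀(2))` (`= estar24 2`, `q`-expansion `estarZ 2`)
and `V = V₂` (`q ↦ q²`):

* `P1 : E₆ = 4 B³ - 3 B E₄`                       (weight 6, level 2, two coefficients);
* `P3 : 4 V E₄ = 5 B² - E₄`                        (weight 4, level 2, two coefficients);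
* `P4 : 8 V E₆ = 11 B³ - 3 B E₄`                   (weight 6, level 2, two coefficients);
* `P2 : 3 E₄ = 11 B² + 8 B (V B) - 16 (V B)²`      (weight 4, level 4, three coefficients).

Everything is derived from the landed `S16` machinery (`IsMF`, `Nice`, `HasQZ`, `Vd`, `estar24`) and
the Prelude's Sturm bound.
-/
import Mathlib
import Fermat.Prelude.Thm_ModularForm_sturm_bound_Gamma0
import Fermat.Agent.S20.Psi
import Fermat.Agent.S20.LevelOne
import Fermat.Agent.S16.LevelOne.QSeries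
import Fermat.Agent.S16.Bridge.Cusps

set_option autoImplicit false
set_option linter.unusedSimpArgs false

namespace Fermat.Agent.S18.Haupt

open UpperHalfPlane ModularForm EisensteinSeries CongruenceSubgroup PowerSeries
open Fermat.Agent.S20 Fermat.Agent.S16 Fermat.Agent.S16.LevelOne.QSeries
open scoped MatrixGroups

noncomputable section

/-! ### Sturm's bound for integral `q`-expansions -/

/-- **Sturm**, in the form used below: an integral `q`-expansion of a modular form on `Γ₀(N)` whose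
coefficients vanish up to the Sturm bound is zero. -/
theorem sturm_series {N : ℕ} [NeZero N] {k : ℤ} {F : ℍ → ℂ} (hF : IsMF N k F) {a : PowerSeries ℤ}
    (ha : HasQZ F a)
    (h : ∀ n : ℕ, n ≤ (k * (Gamma0 N).index).toNat / 12 → PowerSeries.coeff n a = 0) : a = 0 := by
  have hz : hF.toMF = 0 := by
    apply ModularForm.sturm_bound_Gamma0 N
    intro n hn
    have h1 := ha.coeff n
    rw [IsMF.coe_toMF, h1, h n hn, Int.cast_zero]
  have hF0 : F = 0 := by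
    have := congrArg (fun G : ModularForm (Gamma0 N) k => (⇑G : ℍ → ℂ)) hz
    simpa using this
  subst hF0
  exact ha.unique HasQZ.zero

theorem index_Gamma0_two : (Gamma0 2).index = 3 := by
  rw [index_Gamma0 2 (by norm_num)]
  have := dedekindPsi_mul_prime_of_not_dvd (M := 1) one_ne_zero Nat.prime_two (by norm_num)
  rw [one_mul, ModularCurve.dedekindPsi_one] at this
  exact this

theorem dedekindPsi_two : ModularCurve.dedekindPsi 2 = 3 := by
  have := dedekindPsi_mul_prime_of_not_dvd (M := 1) one_ne_zero Nat.prime_two (by norm_num)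
  rw [one_mul, ModularCurve.dedekindPsi_one] at this
  exact this

theorem dedekindPsi_four : ModularCurve.dedekindPsi 4 = 6 := by
  have := dedekindPsi_mul_prime_of_dvd (M := 2) two_ne_zero Nat.prime_two dvd_rfl
  rw [dedekindPsi_two] at this
  exact this

theorem index_Gamma0_four : (Gamma0 4).index = 6 := by
  rw [index_Gamma0 4 (by norm_num), dedekindPsi_four]

/-! ### the first three coefficients of a product -/

theorem coeff_zero_mul_int (P Q : PowerSeries ℤ) :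
    coeff 0 (P * Q) = coeff 0 P * coeff 0 Q := by
  simp [PowerSeries.coeff_mul]

theorem coeff_one_mul_int (P Q : PowerSeries ℤ) :
    coeff 1 (P * Q) = coeff 0 P * coeff 1 Q + coeff 1 P * coeff 0 Q := by
  rw [PowerSeries.coeff_mul]
  simp [Finset.Nat.antidiagonal_succ]

theorem coeff_two_mul_int (P Q : PowerSeries ℤ) :
    coeff 2 (P * Q) = coeff 0 P * coeff 2 Q + coeff 1 P * coeff 1 Q + coeff 2 P * coeff 0 Q := by
  rw [PowerSeries.coeff_mul]
  simp [Finset.Nat.antidiagonal_succ]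
  ring

/-! ### the basic series and their first coefficients -/

/-- the `q`-expansion `1 + 24 ∑ σ*(n) qⁿ` of `B = 2 E₂(2z) - E₂(z)` -/
def BZ : PowerSeries ℤ := estarZ 2

/-- `B(2z)` -/
def BZ' : PowerSeries ℤ := Vop 2 BZ

/-- the function `B = 2 E₂(2z) - E₂(z)` -/
def Bfun : ℍ → ℂ := Estar.estar24 2

/-- the function `z ↦ B(2z)` -/
def Bfun' : ℍ → ℂ := LevelRaise.Vd 2 Bfun

theorem isMF_Bfun : IsMF 2 2 Bfun := Estar.isMF_estar24 2

theorem isMF_Bfun' : IsMF 4 2 Bfun' := LevelRaise.IsMF.Vd 2 isMF_Bfun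

theorem isMF_Bfun_four : IsMF 4 2 Bfun := Bridge.isMF_of_dvd (by norm_num) isMF_Bfun

theorem nice_Bfun : Nice Bfun := isMF_Bfun.nice

theorem nice_Bfun' : Nice Bfun' := isMF_Bfun'.nice

theorem hasQZ_Bfun : HasQZ Bfun BZ := hasQZ_estar24 2

theorem hasQZ_Bfun' : HasQZ Bfun' BZ' := hasQZ_Bfun.Vd nice_Bfun 2

/-- `E₄(2z)` -/
def E4fun' : ℍ → ℂ := LevelRaise.Vd 2 (⇑E₄)

/-- `E₆(2z)` -/
def E6fun' : ℍ → ℂ := LevelRaise.Vd 2 (⇑E₆)

theorem isMF_E4fun' : IsMF 2 4 E4fun' := LevelRaise.IsMF.Vd 2 isMF_E4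

theorem isMF_E6fun' : IsMF 2 6 E6fun' := LevelRaise.IsMF.Vd 2 isMF_E6

theorem hasQZ_E4fun' : HasQZ E4fun' (Vop 2 e4Z) := hasQZ_E4.Vd nice_E4 2

theorem hasQZ_E6fun' : HasQZ E6fun' (Vop 2 e6Z) := hasQZ_E6.Vd nice_E6 2

theorem sigmaStar_two_one : Estar.sigmaStar 2 1 = 1 := by decide

theorem sigmaStar_two_two : Estar.sigmaStar 2 2 = 1 := by decide

theorem coeff_BZ : coeff 0 BZ = 1 ∧ coeff 1 BZ = 24 ∧ coeff 2 BZ = 24 := by
  refine ⟨?_, ?_, ?_⟩
  · rw [BZ, coeff_estarZ]; norm_num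
  · rw [BZ, coeff_estarZ, if_neg one_ne_zero, sigmaStar_two_one]; norm_num
  · rw [BZ, coeff_estarZ, if_neg two_ne_zero, sigmaStar_two_two]; norm_num

theorem coeff_Vop_two (a : PowerSeries ℤ) :
    coeff 0 (Vop 2 a) = coeff 0 a ∧ coeff 1 (Vop 2 a) = 0 ∧ coeff 2 (Vop 2 a) = coeff 1 a := by
  refine ⟨?_, ?_, ?_⟩
  · have := coeff_Vop_mul (p := 2) two_ne_zero a 0
    simpa using this
  · exact coeff_Vop_of_not_dvd two_ne_zero a (by norm_num)
  · have := coeff_Vop_mul (p := 2) two_ne_zero a 1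
    simpa using this

theorem coeff_BZ' : coeff 0 BZ' = 1 ∧ coeff 1 BZ' = 0 ∧ coeff 2 BZ' = 24 := by
  obtain ⟨h0, h1, h2⟩ := coeff_Vop_two BZ
  obtain ⟨b0, b1, -⟩ := coeff_BZ
  exact ⟨by rw [BZ', h0, b0], by rw [BZ', h1], by rw [BZ', h2, b1]⟩

theorem sigma_three_two : ArithmeticFunction.sigma 3 2 = 9 := by decide

theorem sigma_five_two : ArithmeticFunction.sigma 5 2 = 33 := by decide

theorem coeff_e4Z_low : coeff 0 e4Z = 1 ∧ coeff 1 e4Z = 240 ∧ coeff 2 e4Z = 2160 := by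
  refine ⟨?_, ?_, ?_⟩
  · rw [coeff_e4Z]; norm_num
  · rw [coeff_e4Z, if_neg one_ne_zero]; simp
  · rw [coeff_e4Z, if_neg two_ne_zero, sigma_three_two]; norm_num

theorem coeff_e6Z_low : coeff 0 e6Z = 1 ∧ coeff 1 e6Z = -504 ∧ coeff 2 e6Z = -16632 := by
  refine ⟨?_, ?_, ?_⟩
  · rw [coeff_e6Z]; norm_num
  · rw [coeff_e6Z, if_neg one_ne_zero]; simp
  · rw [coeff_e6Z, if_neg two_ne_zero, sigma_five_two]; norm_num

/-! ### modular forms with integral `q`-expansions, bundled -/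

/-- `f ∈ M_k(Γ₀(N))` with the integral `q`-expansion `a` -/
structure MFQ (N : ℕ) (k : ℤ) (f : ℍ → ℂ) (a : PowerSeries ℤ) : Prop where
  mf : IsMF N k f
  q : HasQZ f a

namespace MFQ

variable {N : ℕ} {k l : ℤ} {f g : ℍ → ℂ} {a b : PowerSeries ℤ}

theorem add (hf : MFQ N k f a) (hg : MFQ N k g b) : MFQ N k (f + g) (a + b) :=
  ⟨hf.mf.add hg.mf, hf.q.add hf.mf.nice hg.mf.nice hg.q⟩

theorem sub (hf : MFQ N k f a) (hg : MFQ N k g b) : MFQ N k (f - g) (a - b) :=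
  ⟨hf.mf.sub hg.mf, hf.q.sub hf.mf.nice hg.mf.nice hg.q⟩

theorem mul (hf : MFQ N k f a) (hg : MFQ N l g b) : MFQ N (k + l) (f * g) (a * b) :=
  ⟨hf.mf.mul hg.mf, hf.q.mul hf.mf.nice hg.mf.nice hg.q⟩

theorem int_smul (n : ℤ) (hf : MFQ N k f a) : MFQ N k ((n : ℂ) • f) (n • a) :=
  ⟨hf.mf.smul _, hf.q.int_smul hf.mf.nice n⟩

theorem cast (hf : MFQ N k f a) (h : k = l) : MFQ N l f a := h ▸ hf

theorem of_dvd {M : ℕ} (hf : MFQ N k f a) (h : N ∣ M) : MFQ M k f a :=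
  ⟨Bridge.isMF_of_dvd h hf.mf, hf.q⟩

theorem eq_zero [NeZero N] (hf : MFQ N k f a)
    (h : ∀ n : ℕ, n ≤ (k * (Gamma0 N).index).toNat / 12 → PowerSeries.coeff n a = 0) : a = 0 :=
  sturm_series hf.mf hf.q h

end MFQ

theorem mfq_B : MFQ 2 2 Bfun BZ := ⟨isMF_Bfun, hasQZ_Bfun⟩

theorem mfq_B' : MFQ 4 2 Bfun' BZ' := ⟨isMF_Bfun', hasQZ_Bfun'⟩

theorem mfq_E4 (N : ℕ) : MFQ N 4 (⇑E₄) e4Z := ⟨isMF_E4.of_levelOne, hasQZ_E4⟩

theorem mfq_E6 (N : ℕ) : MFQ N 6 (⇑E₆) e6Z := ⟨isMF_E6.of_levelOne, hasQZ_E6⟩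

theorem mfq_E4' : MFQ 2 4 E4fun' (Vop 2 e4Z) := ⟨isMF_E4fun', hasQZ_E4fun'⟩

theorem mfq_E6' : MFQ 2 6 E6fun' (Vop 2 e6Z) := ⟨isMF_E6fun', hasQZ_E6fun'⟩

/-! ### the four identities -/

/-- **(P1)** `E₆ = 4 B³ - 3 B E₄`, additive form -/
theorem P1_aux : e6Z - (4 : ℤ) • (BZ * (BZ * BZ)) + (3 : ℤ) • (BZ * e4Z) = 0 := by
  have h : MFQ 2 6 _ (e6Z - (4 : ℤ) • (BZ * (BZ * BZ)) + (3 : ℤ) • (BZ * e4Z)) :=
    ((mfq_E6 2).sub (((mfq_B.mul (mfq_B.mul mfq_B)).cast (by norm_num)).int_smul 4)).add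
      (((mfq_B.mul (mfq_E4 2)).cast (by norm_num)).int_smul 3)
  refine h.eq_zero fun n hn => ?_
  rw [index_Gamma0_two] at hn
  have hn1 : n ≤ 1 := by
    have : ((6 : ℤ) * ((3 : ℕ) : ℤ)).toNat / 12 = 1 := by decide
    omega
  obtain ⟨b0, b1, -⟩ := coeff_BZ
  obtain ⟨e0, e1, -⟩ := coeff_e4Z_low
  obtain ⟨f0, f1, -⟩ := coeff_e6Z_low
  interval_cases n
  · simp only [map_add, map_sub, coeff_int_smul, coeff_zero_mul_int, b0, e0, f0]
    norm_num
  · simp only [map_add, map_sub, coeff_int_smul, coeff_zero_mul_int, coeff_one_mul_int,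
      b0, e0, f0, b1, e1, f1]
    norm_num

/-- **(P3)** `4 E₄(2z) = 5 B² - E₄`, additive form -/
theorem P3_aux : (4 : ℤ) • Vop 2 e4Z - (5 : ℤ) • (BZ * BZ) + e4Z = 0 := by
  have h : MFQ 2 4 _ ((4 : ℤ) • Vop 2 e4Z - (5 : ℤ) • (BZ * BZ) + e4Z) :=
    ((mfq_E4'.int_smul 4).sub (((mfq_B.mul mfq_B).cast (by norm_num)).int_smul 5)).add (mfq_E4 2)
  refine h.eq_zero fun n hn => ?_
  rw [index_Gamma0_two] at hn
  have hn1 : n ≤ 1 := by
    have : ((4 : ℤ) * ((3 : ℕ) : ℤ)).toNat / 12 = 1 := by decide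
    omega
  obtain ⟨b0, b1, -⟩ := coeff_BZ
  obtain ⟨e0, e1, -⟩ := coeff_e4Z_low
  obtain ⟨v0, v1, -⟩ := coeff_Vop_two e4Z
  interval_cases n
  · simp only [map_add, map_sub, coeff_int_smul, coeff_zero_mul_int, b0, e0, v0]
    norm_num
  · simp only [map_add, map_sub, coeff_int_smul, coeff_zero_mul_int, coeff_one_mul_int,
      b0, e0, v0, b1, e1, v1]
    norm_num

/-- **(P4)** `8 E₆(2z) = 11 B³ - 3 B E₄`, additive form -/
theorem P4_aux : (8 : ℤ) • Vop 2 e6Z - (11 : ℤ) • (BZ * (BZ * BZ)) + (3 : ℤ) • (BZ * e4Z) = 0 := by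
  have h : MFQ 2 6 _ ((8 : ℤ) • Vop 2 e6Z - (11 : ℤ) • (BZ * (BZ * BZ)) + (3 : ℤ) • (BZ * e4Z)) :=
    ((mfq_E6'.int_smul 8).sub (((mfq_B.mul (mfq_B.mul mfq_B)).cast (by norm_num)).int_smul 11)).add
      (((mfq_B.mul (mfq_E4 2)).cast (by norm_num)).int_smul 3)
  refine h.eq_zero fun n hn => ?_
  rw [index_Gamma0_two] at hn
  have hn1 : n ≤ 1 := by
    have : ((6 : ℤ) * ((3 : ℕ) : ℤ)).toNat / 12 = 1 := by decide
    omega
  obtain ⟨b0, b1, -⟩ := coeff_BZ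
  obtain ⟨e0, e1, -⟩ := coeff_e4Z_low
  obtain ⟨v0, v1, -⟩ := coeff_Vop_two e6Z
  obtain ⟨f0, -, -⟩ := coeff_e6Z_low
  interval_cases n
  · simp only [map_add, map_sub, coeff_int_smul, coeff_zero_mul_int, b0, e0, v0, f0]
    norm_num
  · simp only [map_add, map_sub, coeff_int_smul, coeff_zero_mul_int, coeff_one_mul_int,
      b0, e0, v0, b1, e1, v1, f0]
    norm_num

/-- **(P2)** `3 E₄ = 11 B² + 8 B B' - 16 B'²`, additive form -/
theorem P2_aux :
    (3 : ℤ) • e4Z - (11 : ℤ) • (BZ * BZ) - (8 : ℤ) • (BZ * BZ') + (16 : ℤ) • (BZ' * BZ') = 0 := by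
  have hB4 : MFQ 4 2 Bfun BZ := mfq_B.of_dvd (by norm_num)
  have h : MFQ 4 4 _
      ((3 : ℤ) • e4Z - (11 : ℤ) • (BZ * BZ) - (8 : ℤ) • (BZ * BZ') + (16 : ℤ) • (BZ' * BZ')) :=
    ((((mfq_E4 4).int_smul 3).sub (((hB4.mul hB4).cast (by norm_num)).int_smul 11)).sub
      (((hB4.mul mfq_B').cast (by norm_num)).int_smul 8)).add
      (((mfq_B'.mul mfq_B').cast (by norm_num)).int_smul 16)
  refine h.eq_zero fun n hn => ?_
  rw [index_Gamma0_four] at hn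
  have hn1 : n ≤ 2 := by
    have : ((4 : ℤ) * ((6 : ℕ) : ℤ)).toNat / 12 = 2 := by decide
    omega
  obtain ⟨b0, b1, b2⟩ := coeff_BZ
  obtain ⟨c0, c1, c2⟩ := coeff_BZ'
  obtain ⟨e0, e1, e2⟩ := coeff_e4Z_low
  interval_cases n
  · simp only [map_add, map_sub, coeff_int_smul, coeff_zero_mul_int, b0, c0, e0]
    norm_num
  · simp only [map_add, map_sub, coeff_int_smul, coeff_zero_mul_int, coeff_one_mul_int,
      b0, c0, e0, b1, c1, e1]
    norm_num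
  · simp only [map_add, map_sub, coeff_int_smul, coeff_zero_mul_int, coeff_one_mul_int,
      coeff_two_mul_int, b0, c0, e0, b1, c1, e1, b2, c2, e2]
    norm_num

/-! ### ring-friendly forms -/

theorem int_smul_eq_mul (n : ℤ) (a : PowerSeries ℤ) : n • a = (n : PowerSeries ℤ) * a :=
  zsmul_eq_mul a n

/-- **(P1)** `E₆ = 4 B³ - 3 B E₄` -/
theorem P1 : e6Z = 4 * BZ ^ 3 - 3 * BZ * e4Z := by
  have h := P1_aux
  rw [int_smul_eq_mul, int_smul_eq_mul] at h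
  push_cast at h
  linear_combination h

/-- **(P3)** `4 E₄(2z) = 5 B² - E₄` -/
theorem P3 : 4 * Vop 2 e4Z = 5 * BZ ^ 2 - e4Z := by
  have h := P3_aux
  rw [int_smul_eq_mul, int_smul_eq_mul] at h
  push_cast at h
  linear_combination h

/-- **(P4)** `8 E₆(2z) = 11 B³ - 3 B E₄` -/
theorem P4 : 8 * Vop 2 e6Z = 11 * BZ ^ 3 - 3 * BZ * e4Z := by
  have h := P4_aux
  rw [int_smul_eq_mul, int_smul_eq_mul, int_smul_eq_mul] at h
  push_cast at h
  linear_combination h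

/-- **(P2)** `3 E₄ = 11 B² + 8 B B' - 16 B'²` -/
theorem P2 : 3 * e4Z = 11 * BZ ^ 2 + 8 * BZ * BZ' - 16 * BZ' ^ 2 := by
  have h := P2_aux
  rw [int_smul_eq_mul, int_smul_eq_mul, int_smul_eq_mul, int_smul_eq_mul] at h
  push_cast at h
  linear_combination h

end

end Fermat.Agent.S18.Haupt
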