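/-
S18, block D, leaf (D4a), part 2 (helper13): the Hauptmodul `t₄` of `Γ₀(4)` as a Laurent series over
`ℚ` and the rational expressions of `j(q)`, `j(q²)`, `j(q⁴)` in `t₄`.

With `b = ι B`, `b' = ι B(q²)` (`ι : ℤ[[q]] → ℚ((q))`):
`t₄ = 8 (4 b' - b) / (b - b') = q⁻¹ - 8 + 20 q - ...` and

* `jq_mul   : j(q)  · t₄⁴ (t₄ + 16)   = (t₄² + 256 t₄ + 4096)³`;
* `jq2_mul  : j(q²) · t₄² (t₄ + 16)²  = (t₄² + 16 t₄ + 256)³`;
* `jq4_mul  : j(q⁴) · t₄ (t₄ + 16)    = (t₄² + 16 t₄ + 16)³`.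
-/
import Mathlib
import Fermat.Agent.S18.Haupt.Level2

set_option autoImplicit false

namespace Fermat.Agent.S18.Haupt

open PowerSeries ModularCurve
open Fermat.Agent.S16.LevelOne.QSeries

noncomputable section

/-! ### from `ℤ[[q]]` to `ℚ((q))` -/

theorem charZero_laurentQ : CharZero (LaurentSeries ℚ) :=
  charZero_of_injective_algebraMap (algebraMap ℚ (LaurentSeries ℚ)).injective

attribute [local instance] charZero_laurentQ

/-- `ι : ℤ[[q]] → ℚ((q))` -/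
def iota : PowerSeries ℤ →+* LaurentSeries ℚ :=
  (HahnSeries.ofPowerSeries ℤ ℚ).comp (PowerSeries.map (Int.castRingHom ℚ))

theorem iota_apply (a : PowerSeries ℤ) :
    iota a = HahnSeries.ofPowerSeries ℤ ℚ (a.map (Int.castRingHom ℚ)) := rfl

theorem iota_coeff (a : PowerSeries ℤ) (n : ℕ) :
    (iota a).coeff (n : ℤ) = ((PowerSeries.coeff n a : ℤ) : ℚ) := by
  rw [iota_apply, HahnSeries.ofPowerSeries_apply_coeff, PowerSeries.coeff_map]
  rfl

theorem iota_injective : Function.Injective iota := by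
  intro a b h
  ext n
  have := congrArg (fun x : LaurentSeries ℚ => x.coeff (n : ℤ)) h
  simp only [iota_coeff] at this
  exact_mod_cast this

theorem ofPowerSeries_expand' {R : Type*} [CommRing R] (p : ℕ) [NeZero p] (f : PowerSeries R) :
    HahnSeries.ofPowerSeries ℤ R (PowerSeries.expand p (NeZero.ne p) f) =
      qExpand R p (HahnSeries.ofPowerSeries ℤ R f) := by
  ext k
  by_cases hk : ((p : ℕ) : ℤ) ∣ k
  · obtain ⟨m, rfl⟩ := hk
    rw [qExpand_coeff_mul]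
    rcases le_or_gt 0 m with hm | hm
    · lift m to ℕ using hm
      rw [show ((p : ℕ) : ℤ) * (m : ℤ) = ((p * m : ℕ) : ℤ) by push_cast; ring,
        HahnSeries.ofPowerSeries_apply_coeff, HahnSeries.ofPowerSeries_apply_coeff,
        PowerSeries.coeff_expand_mul]
    · have hp : (0 : ℤ) < (p : ℤ) := by exact_mod_cast Nat.pos_of_ne_zero (NeZero.ne p)
      rw [ofPowerSeries_coeff_of_neg _ hm, ofPowerSeries_coeff_of_neg _ (by nlinarith)]
  · rw [qExpand_coeff_of_not_dvd p _ hk]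
    rcases le_or_gt 0 k with hk0 | hk0
    · lift k to ℕ using hk0
      rw [HahnSeries.ofPowerSeries_apply_coeff]
      exact PowerSeries.coeff_expand_of_not_dvd p (NeZero.ne p) f (by exact_mod_cast hk)
    · exact ofPowerSeries_coeff_of_neg _ hk0

/-- `q ↦ q^p` commutes with `ι` -/
theorem qExpand_iota (p : ℕ) [NeZero p] (a : PowerSeries ℤ) :
    qExpand ℚ p (iota a) = iota (Vop p a) := by
  rw [iota_apply, iota_apply, map_Vop, Vop_eq_expand (NeZero.ne p), ofPowerSeries_expand']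

/-- `j · Δ = E₄³` in `ℚ((q))` -/
theorem jq_mul_iota_deltaZ : jq * iota deltaZ = iota e4Z ^ 3 := by
  have h1 : iota deltaZ = HahnSeries.single (1 : ℤ) (1 : ℚ) * iota dedekindEtaUnit := by
    rw [deltaZ, map_mul]
    congr 1
    rw [iota_apply, PowerSeries.map_X, HahnSeries.ofPowerSeries_X]
  have h2 : HahnSeries.ofPowerSeries ℤ ℚ jNumQ = iota e4Z ^ 3 * iota dedekindEtaUnitInv := by
    rw [jNumQ, jNum, ← map_pow, ← map_mul, iota_apply]
    rfl
  have h3 : iota dedekindEtaUnitInv * iota dedekindEtaUnit = 1 := by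
    rw [← map_mul, mul_comm, dedekindEtaUnit_mul_inv, map_one]
  have h4 : HahnSeries.single (-1 : ℤ) (1 : ℚ) * HahnSeries.single (1 : ℤ) (1 : ℚ) = 1 := by
    rw [HahnSeries.single_mul_single]
    simp
  rw [jq, h1, h2]
  calc HahnSeries.single (-1 : ℤ) (1 : ℚ) * (iota e4Z ^ 3 * iota dedekindEtaUnitInv) *
        (HahnSeries.single (1 : ℤ) (1 : ℚ) * iota dedekindEtaUnit)
      = (HahnSeries.single (-1 : ℤ) (1 : ℚ) * HahnSeries.single (1 : ℤ) (1 : ℚ)) *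
          (iota dedekindEtaUnitInv * iota dedekindEtaUnit) * iota e4Z ^ 3 := by ring
    _ = iota e4Z ^ 3 := by rw [h3, h4, one_mul, one_mul]

/-! ### the images of the basic series -/

/-- `B` -/
def bL : LaurentSeries ℚ := iota BZ
/-- `B(q²)` -/
def bL' : LaurentSeries ℚ := iota BZ'
/-- `E₄` -/
def e4L : LaurentSeries ℚ := iota e4Z
/-- `E₆` -/
def e6L : LaurentSeries ℚ := iota e6Z
/-- `Δ` -/
def dlL : LaurentSeries ℚ := iota deltaZ
/-- `E₄(q²)` -/
def e4L' : LaurentSeries ℚ := iota (Vop 2 e4Z)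
/-- `E₆(q²)` -/
def e6L' : LaurentSeries ℚ := iota (Vop 2 e6Z)
/-- `Δ(q²)` -/
def dlL' : LaurentSeries ℚ := iota (Vop 2 deltaZ)
/-- `E₄(q⁴)` -/
def e4L'' : LaurentSeries ℚ := iota (Vop 2 (Vop 2 e4Z))
/-- `E₆(q⁴)` -/
def e6L'' : LaurentSeries ℚ := iota (Vop 2 (Vop 2 e6Z))
/-- `Δ(q⁴)` -/
def dlL'' : LaurentSeries ℚ := iota (Vop 2 (Vop 2 deltaZ))

theorem I1 : e6L = 4 * bL ^ 3 - 3 * bL * e4L := by
  have := congrArg iota P1
  simpa only [e6L, bL, e4L, map_mul, map_sub, map_add, map_pow, map_ofNat] using this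

theorem I2 : 3 * e4L = 11 * bL ^ 2 + 8 * bL * bL' - 16 * bL' ^ 2 := by
  have := congrArg iota P2
  simpa only [bL, bL', e4L, map_mul, map_sub, map_add, map_pow, map_ofNat] using this

theorem I3 : 4 * e4L' = 5 * bL ^ 2 - e4L := by
  have := congrArg iota P3
  simpa only [bL, e4L', e4L, map_mul, map_sub, map_add, map_pow, map_ofNat] using this

theorem I4 : 8 * e6L' = 11 * bL ^ 3 - 3 * bL * e4L := by
  have := congrArg iota P4
  simpa only [bL, e6L', e4L, map_mul, map_sub, map_add, map_pow, map_ofNat] using this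

theorem I3' : 4 * e4L'' = 5 * bL' ^ 2 - e4L' := by
  have := congrArg (fun x => iota (Vop 2 x)) P3
  simpa only [bL', BZ', e4L'', e4L', map_mul, map_sub, map_add, map_pow, map_ofNat] using this

theorem I4' : 8 * e6L'' = 11 * bL' ^ 3 - 3 * bL' * e4L' := by
  have := congrArg (fun x => iota (Vop 2 x)) P4
  simpa only [bL', BZ', e6L'', e4L', map_mul, map_sub, map_add, map_pow, map_ofNat] using this

theorem ID : 1728 * dlL = e4L ^ 3 - e6L ^ 2 := by
  have := congrArg iota deltaZ_rel'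
  simpa only [dlL, e4L, e6L, map_mul, map_sub, map_add, map_pow, map_ofNat] using this

theorem ID' : 1728 * dlL' = e4L' ^ 3 - e6L' ^ 2 := by
  have := congrArg (fun x => iota (Vop 2 x)) deltaZ_rel'
  simpa only [dlL', e4L', e6L', map_mul, map_sub, map_add, map_pow, map_ofNat] using this

theorem ID'' : 1728 * dlL'' = e4L'' ^ 3 - e6L'' ^ 2 := by
  have := congrArg (fun x => iota (Vop 2 (Vop 2 x))) deltaZ_rel'
  simpa only [dlL'', e4L'', e6L'', map_mul, map_sub, map_add, map_pow, map_ofNat] using this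

/-! ### everything in terms of `b`, `b'` -/

theorem e4L_eq : e4L = (11 * bL ^ 2 + 8 * bL * bL' - 16 * bL' ^ 2) / 3 := by
  rw [eq_div_iff (by norm_num : (3 : LaurentSeries ℚ) ≠ 0)]
  linear_combination I2

theorem e4L'_eq : e4L' = (bL ^ 2 - 2 * bL * bL' + 4 * bL' ^ 2) / 3 := by
  have h := I3
  rw [e4L_eq] at h
  rw [eq_div_iff (by norm_num : (3 : LaurentSeries ℚ) ≠ 0)]
  linear_combination (3 / 4 : LaurentSeries ℚ) * h

theorem e4L''_eq : e4L'' = (-bL ^ 2 + 2 * bL * bL' + 11 * bL' ^ 2) / 12 := by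
  have h := I3'
  rw [e4L'_eq] at h
  rw [eq_div_iff (by norm_num : (12 : LaurentSeries ℚ) ≠ 0)]
  linear_combination (3 : LaurentSeries ℚ) * h

/-- `5832 Δ = (B - B')(B + 2B')(B - 4B')⁴` -/
theorem dlL_eq : 5832 * dlL = (bL - bL') * (bL + 2 * bL') * (bL - 4 * bL') ^ 4 := by
  have h := ID
  rw [I1, e4L_eq] at h
  linear_combination (27 / 8 : LaurentSeries ℚ) * h

/-- `46656 Δ(q²) = (B - B')²(B + 2B')²(B - 4B')²` -/
theorem dlL'_eq :
    46656 * dlL' = (bL - bL') ^ 2 * (bL + 2 * bL') ^ 2 * (bL - 4 * bL') ^ 2 := by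
  have h := ID'
  have h6 : e6L' = (11 * bL ^ 3 - 3 * bL * e4L) / 8 := by
    rw [eq_div_iff (by norm_num : (8 : LaurentSeries ℚ) ≠ 0)]
    linear_combination I4
  rw [h6, e4L'_eq, e4L_eq] at h
  linear_combination (27 : LaurentSeries ℚ) * h

/-- `2985984 Δ(q⁴) = (B - B')⁴ (4B' - B)(B + 2B')` -/
theorem dlL''_eq :
    2985984 * dlL'' = (bL - bL') ^ 4 * (4 * bL' - bL) * (bL + 2 * bL') := by
  have h := ID''
  have h6 : e6L'' = (11 * bL' ^ 3 - 3 * bL' * e4L') / 8 := by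
    rw [eq_div_iff (by norm_num : (8 : LaurentSeries ℚ) ≠ 0)]
    linear_combination I4'
  rw [h6, e4L''_eq, e4L'_eq] at h
  linear_combination (1728 : LaurentSeries ℚ) * h

/-! ### non-vanishing -/

theorem coeff_one_deltaZ : PowerSeries.coeff 1 deltaZ = 1 := by
  have := coeff_deltaZ_pow 1
  rwa [pow_one] at this

theorem dlL_ne_zero : dlL ≠ 0 := by
  intro h
  have h1 : deltaZ = 0 := iota_injective (by rw [map_zero]; exact h)
  have := coeff_one_deltaZ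
  rw [h1, map_zero] at this
  exact zero_ne_one this

theorem factors_ne_zero :
    bL - bL' ≠ 0 ∧ bL + 2 * bL' ≠ 0 ∧ bL - 4 * bL' ≠ 0 := by
  have h : (bL - bL') * (bL + 2 * bL') * (bL - 4 * bL') ^ 4 ≠ 0 := by
    rw [← dlL_eq]
    exact mul_ne_zero (by norm_num) dlL_ne_zero
  refine ⟨?_, ?_, ?_⟩
  · exact fun h0 => h (by simp [h0])
  · exact fun h0 => h (by simp [h0])
  · exact fun h0 => h (by simp [h0])

theorem bL_sub_ne_zero : bL - bL' ≠ 0 := factors_ne_zero.1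

theorem bL_add_ne_zero : bL + 2 * bL' ≠ 0 := factors_ne_zero.2.1

theorem bL_sub_four_ne_zero : bL - 4 * bL' ≠ 0 := factors_ne_zero.2.2

/-! ### `j(q)`, `j(q²)`, `j(q⁴)` times `Δ` -/

theorem hj0 : jq * dlL = e4L ^ 3 := jq_mul_iota_deltaZ

theorem hj2 : qExpand ℚ 2 jq * dlL' = e4L' ^ 3 := by
  have := congrArg (qExpand ℚ 2) hj0
  rw [map_mul, map_pow, dlL, e4L, qExpand_iota, qExpand_iota] at this
  exact this

theorem qExpand_four (f : LaurentSeries ℚ) : qExpand ℚ 4 f = qExpand ℚ 2 (qExpand ℚ 2 f) := by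
  rw [qExpand_qExpand]

theorem hj4 : qExpand ℚ 4 jq * dlL'' = e4L'' ^ 3 := by
  have := congrArg (qExpand ℚ 2) hj2
  rw [map_mul, map_pow, dlL', e4L', qExpand_iota, qExpand_iota, ← qExpand_four] at this
  exact this

/-! ### the Hauptmodul -/

/-- **The Hauptmodul of `Γ₀(4)`**: `t₄ = 8 (4 B(q²) - B(q)) / (B(q) - B(q²)) = q⁻¹ - 8 + 20 q - ...`
(`= (η(z)/η(4z))⁸`). -/
def t4 : LaurentSeries ℚ := 8 * (4 * bL' - bL) / (bL - bL')

theorem t4_add_sixteen : t4 + 16 = 8 * (bL + 2 * bL') / (bL - bL') := by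
  have hd := bL_sub_ne_zero
  rw [t4]
  field_simp
  ring

theorem t4_ne_zero : t4 ≠ 0 := by
  rw [t4]
  refine div_ne_zero (mul_ne_zero (by norm_num) ?_) bL_sub_ne_zero
  intro h
  exact bL_sub_four_ne_zero (by linear_combination -h)

theorem t4_add_sixteen_ne_zero : t4 + 16 ≠ 0 := by
  rw [t4_add_sixteen]
  exact div_ne_zero (mul_ne_zero (by norm_num) bL_add_ne_zero) bL_sub_ne_zero

theorem t4_quad0 : t4 ^ 2 + 256 * t4 + 4096 = 576 * e4L / (bL - bL') ^ 2 := by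
  have hd := bL_sub_ne_zero
  rw [t4, e4L_eq]
  field_simp
  ring

theorem t4_quad2 : t4 ^ 2 + 16 * t4 + 256 = 576 * e4L' / (bL - bL') ^ 2 := by
  have hd := bL_sub_ne_zero
  rw [t4, e4L'_eq]
  field_simp
  ring

theorem t4_quad4 : t4 ^ 2 + 16 * t4 + 16 = 576 * e4L'' / (bL - bL') ^ 2 := by
  have hd := bL_sub_ne_zero
  rw [t4, e4L''_eq]
  field_simp
  ring

/-- **`j = (t² + 256 t + 4096)³ / (t⁴ (t + 16))`** -/
theorem jq_mul : jq * (t4 ^ 4 * (t4 + 16)) = (t4 ^ 2 + 256 * t4 + 4096) ^ 3 := by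
  have hd := bL_sub_ne_zero
  have h1 : t4 ^ 4 * (t4 + 16) =
      32768 * ((bL - bL') * (bL + 2 * bL') * (bL - 4 * bL') ^ 4) / (bL - bL') ^ 6 := by
    rw [t4_add_sixteen, t4]
    field_simp
    ring
  rw [← dlL_eq] at h1
  calc jq * (t4 ^ 4 * (t4 + 16)) = jq * (32768 * (5832 * dlL) / (bL - bL') ^ 6) := by rw [h1]
    _ = 191102976 * (jq * dlL) / (bL - bL') ^ 6 := by ring
    _ = 191102976 * e4L ^ 3 / (bL - bL') ^ 6 := by rw [hj0]
    _ = (576 * e4L / (bL - bL') ^ 2) ^ 3 := by rw [div_pow]; ring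
    _ = (t4 ^ 2 + 256 * t4 + 4096) ^ 3 := by rw [t4_quad0]

/-- **`j(q²) = (t² + 16 t + 256)³ / (t² (t + 16)²)`** -/
theorem jq2_mul :
    qExpand ℚ 2 jq * (t4 ^ 2 * (t4 + 16) ^ 2) = (t4 ^ 2 + 16 * t4 + 256) ^ 3 := by
  have hd := bL_sub_ne_zero
  have h1 : t4 ^ 2 * (t4 + 16) ^ 2 =
      4096 * ((bL - bL') ^ 2 * (bL + 2 * bL') ^ 2 * (bL - 4 * bL') ^ 2) / (bL - bL') ^ 6 := by
    rw [t4_add_sixteen, t4]
    field_simp
    ring
  rw [← dlL'_eq] at h1
  calc qExpand ℚ 2 jq * (t4 ^ 2 * (t4 + 16) ^ 2)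
      = qExpand ℚ 2 jq * (4096 * (46656 * dlL') / (bL - bL') ^ 6) := by rw [h1]
    _ = 191102976 * (qExpand ℚ 2 jq * dlL') / (bL - bL') ^ 6 := by ring
    _ = 191102976 * e4L' ^ 3 / (bL - bL') ^ 6 := by rw [hj2]
    _ = (576 * e4L' / (bL - bL') ^ 2) ^ 3 := by rw [div_pow]; ring
    _ = (t4 ^ 2 + 16 * t4 + 256) ^ 3 := by rw [t4_quad2]

/-- **`j(q⁴) = (t² + 16 t + 16)³ / (t (t + 16))`** -/
theorem jq4_mul :
    qExpand ℚ 4 jq * (t4 * (t4 + 16)) = (t4 ^ 2 + 16 * t4 + 16) ^ 3 := by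
  have hd := bL_sub_ne_zero
  have h1 : t4 * (t4 + 16) =
      64 * ((bL - bL') ^ 4 * (4 * bL' - bL) * (bL + 2 * bL')) / (bL - bL') ^ 6 := by
    rw [t4_add_sixteen, t4]
    field_simp
    ring
  rw [← dlL''_eq] at h1
  calc qExpand ℚ 4 jq * (t4 * (t4 + 16))
      = qExpand ℚ 4 jq * (64 * (2985984 * dlL'') / (bL - bL') ^ 6) := by rw [h1]
    _ = 191102976 * (qExpand ℚ 4 jq * dlL'') / (bL - bL') ^ 6 := by ring
    _ = 191102976 * e4L'' ^ 3 / (bL - bL') ^ 6 := by rw [hj4]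
    _ = (576 * e4L'' / (bL - bL') ^ 2) ^ 3 := by rw [div_pow]; ring
    _ = (t4 ^ 2 + 16 * t4 + 16) ^ 3 := by rw [t4_quad4]

end

end Fermat.Agent.S18.Haupt
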