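/-
S18, block D, leaf (D4a), part 3 (helper13): integrality of the Hauptmodul `t₄` of `Γ₀(4)`,
`t₄ ∈ modularFunctionFieldFull 4` and `ℚ(t₄) = modularFunctionFieldFull 4`.
-/
import Mathlib
import Fermat.Agent.S18.Haupt.Level4
import Fermat.Agent.S16.Bridge.Main
import Fermat.Agent.S28.RegDegree

set_option autoImplicit false

namespace Fermat.Agent.S18.Haupt

open PowerSeries ModularCurve UpperHalfPlane
open Fermat.Agent.S20 Fermat.Agent.S16 Fermat.Agent.S16.LevelOne.QSeries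
open Fermat.Agent.S24.JPoly (Rep qq)

noncomputable section

theorem twentyfour_ne_zero : (24 : LaurentSeries ℚ) ≠ 0 := by
  have := charZero_laurentQ
  norm_num

/-! ### integrality: `t₄ = q⁻¹ · T`, `T ∈ 1 + q ℤ[[q]]` -/

/-- `b = ∑_{n ≥ 1} σ*(n) qⁿ`, `σ*(n)` the sum of the odd divisors of `n` -/
def bZ : PowerSeries ℤ := PowerSeries.mk fun n => if n = 0 then 0 else (Estar.sigmaStar 2 n : ℤ)

theorem coeff_bZ (n : ℕ) :
    PowerSeries.coeff n bZ = if n = 0 then 0 else (Estar.sigmaStar 2 n : ℤ) := by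
  rw [bZ, PowerSeries.coeff_mk]

theorem BZ_eq : BZ = 1 + 24 * bZ := by
  ext n
  rw [BZ, coeff_estarZ, map_add, PowerSeries.coeff_one,
    show (24 : PowerSeries ℤ) = PowerSeries.C (24 : ℤ) from rfl, PowerSeries.coeff_C_mul, coeff_bZ]
  by_cases hn : n = 0
  · simp [hn]
  · simp [hn]

theorem BZ'_eq : BZ' = 1 + 24 * Vop 2 bZ := by
  rw [BZ', BZ_eq, map_add, map_mul, map_one, map_ofNat]

/-- `(b(q) - b(q²))/q` -/
def vZ : PowerSeries ℤ := PowerSeries.mk fun n => PowerSeries.coeff (n + 1) (bZ - Vop 2 bZ)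

theorem bZ_sub : bZ - Vop 2 bZ = PowerSeries.X * vZ := by
  ext n
  rcases n with _ | n
  · rw [PowerSeries.coeff_zero_X_mul, map_sub, coeff_bZ, if_pos rfl]
    have := coeff_Vop_mul (p := 2) two_ne_zero bZ 0
    rw [zero_mul] at this
    rw [this, coeff_bZ, if_pos rfl, sub_zero]
  · rw [PowerSeries.coeff_succ_X_mul, vZ, PowerSeries.coeff_mk]

theorem constantCoeff_vZ : PowerSeries.constantCoeff vZ = 1 := by
  rw [← PowerSeries.coeff_zero_eq_constantCoeff_apply, vZ, PowerSeries.coeff_mk, map_sub, coeff_bZ,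
    if_neg (by norm_num), coeff_Vop_of_not_dvd two_ne_zero bZ (by norm_num), sigmaStar_two_one]
  norm_num

/-- the inverse of `vZ` in `ℤ[[q]]` -/
def wZ : PowerSeries ℤ := vZ.invOfUnit 1

theorem vZ_mul_wZ : vZ * wZ = 1 :=
  PowerSeries.mul_invOfUnit _ _ (by rw [constantCoeff_vZ]; rfl)

/-- **the integral power series `q · t₄`** -/
def TZ : PowerSeries ℤ := (1 + 8 * (4 * Vop 2 bZ - bZ)) * wZ

theorem constantCoeff_wZ : PowerSeries.constantCoeff wZ = 1 := by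
  have h := congrArg (PowerSeries.constantCoeff (R := ℤ)) vZ_mul_wZ
  rwa [map_mul, constantCoeff_vZ, one_mul, map_one] at h

theorem constantCoeff_bZ' : PowerSeries.constantCoeff bZ = 0 := by
  rw [← PowerSeries.coeff_zero_eq_constantCoeff_apply, coeff_bZ, if_pos rfl]

theorem constantCoeff_TZ : PowerSeries.constantCoeff TZ = 1 := by
  have hV : PowerSeries.constantCoeff (Vop 2 bZ) = 0 := by
    rw [← PowerSeries.coeff_zero_eq_constantCoeff_apply]
    have := coeff_Vop_mul (p := 2) two_ne_zero bZ 0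
    rw [zero_mul] at this
    rw [this, coeff_bZ, if_pos rfl]
  rw [TZ, map_mul, constantCoeff_wZ, map_add, map_mul, map_sub, map_mul, hV, constantCoeff_bZ']
  simp

/-- `q` as a Laurent series -/
def qL : LaurentSeries ℚ := HahnSeries.single (1 : ℤ) (1 : ℚ)

theorem iota_X : iota PowerSeries.X = qL := by
  rw [iota_apply, PowerSeries.map_X, HahnSeries.ofPowerSeries_X]
  rfl

theorem qL_inv_mul : HahnSeries.single (-1 : ℤ) (1 : ℚ) * qL = 1 := by
  rw [qL, HahnSeries.single_mul_single]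
  simp

theorem qL_ne_zero : qL ≠ 0 := by
  intro h
  have := qL_inv_mul
  rw [h, mul_zero] at this
  exact zero_ne_one this

/-- **Integrality of the Hauptmodul**: `t₄ = q⁻¹ · T` with `T ∈ 1 + q ℤ[[q]]`. -/
theorem t4_eq : t4 = HahnSeries.single (-1 : ℤ) (1 : ℚ) * iota TZ := by
  have hd := bL_sub_ne_zero
  have h1 : bL - bL' = 24 * (qL * iota vZ) := by
    rw [bL, bL', BZ_eq, BZ'_eq, ← iota_X, ← map_mul, ← bZ_sub]
    simp only [map_add, map_sub, map_mul, map_one, map_ofNat]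
    ring
  have h2 : 8 * (4 * bL' - bL) = 24 * iota (1 + 8 * (4 * Vop 2 bZ - bZ)) := by
    rw [bL, bL', BZ_eq, BZ'_eq]
    simp only [map_add, map_sub, map_mul, map_one, map_ofNat]
    ring
  have h3 : iota vZ * iota wZ = 1 := by rw [← map_mul, vZ_mul_wZ, map_one]
  have hv : iota vZ ≠ 0 := fun h => by rw [h, zero_mul] at h3; exact zero_ne_one h3
  rw [t4, h2, h1, TZ, map_mul, div_eq_iff (mul_ne_zero twentyfour_ne_zero (mul_ne_zero qL_ne_zero hv))]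
  calc 24 * iota (1 + 8 * (4 * Vop 2 bZ - bZ))
      = 24 * iota (1 + 8 * (4 * Vop 2 bZ - bZ)) * (HahnSeries.single (-1 : ℤ) (1 : ℚ) * qL) *
          (iota vZ * iota wZ) := by rw [qL_inv_mul, h3, mul_one, mul_one]
    _ = HahnSeries.single (-1 : ℤ) (1 : ℚ) * (iota (1 + 8 * (4 * Vop 2 bZ - bZ)) * iota wZ) *
          (24 * (qL * iota vZ)) := by ring

/-! ### the factorisation of `Δ` on `ℍ` and the non-vanishing of `B - B'` -/

theorem deltaZ_fact :
    5832 * deltaZ = (BZ - BZ') * (BZ + 2 * BZ') * (BZ - 4 * BZ') ^ 4 := by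
  apply iota_injective
  simp only [map_mul, map_sub, map_add, map_pow, map_ofNat]
  exact dlL_eq

/-- `B - B'` with its `q`-expansion -/
theorem mfq_den : MFQ 4 2 (Bfun - Bfun') (BZ - BZ') :=
  (mfq_B.of_dvd (by norm_num)).sub mfq_B'

/-- `B + 2B'` -/
theorem mfq_f2 : MFQ 4 2 (Bfun + ((2 : ℤ) : ℂ) • Bfun') (BZ + (2 : ℤ) • BZ') :=
  (mfq_B.of_dvd (by norm_num)).add (mfq_B'.int_smul 2)

/-- `B - 4B'` -/
theorem mfq_f4 : MFQ 4 2 (Bfun - ((4 : ℤ) : ℂ) • Bfun') (BZ - (4 : ℤ) • BZ') :=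
  (mfq_B.of_dvd (by norm_num)).sub (mfq_B'.int_smul 4)

/-- `8 (4B' - B)` -/
theorem mfq_num :
    MFQ 4 2 (((8 : ℤ) : ℂ) • (((4 : ℤ) : ℂ) • Bfun' - Bfun)) ((8 : ℤ) • ((4 : ℤ) • BZ' - BZ)) :=
  ((mfq_B'.int_smul 4).sub (mfq_B.of_dvd (by norm_num))).int_smul 8

theorem delta_fact_fun :
    ((5832 : ℤ) : ℂ) • (ModularForm.discriminant : ℍ → ℂ) =
      (Bfun - Bfun') * (Bfun + ((2 : ℤ) : ℂ) • Bfun') *
        (((Bfun - ((4 : ℤ) : ℂ) • Bfun') * (Bfun - ((4 : ℤ) : ℂ) • Bfun')) *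
          ((Bfun - ((4 : ℤ) : ℂ) • Bfun') * (Bfun - ((4 : ℤ) : ℂ) • Bfun'))) := by
  have hL : HasQZ (((5832 : ℤ) : ℂ) • (ModularForm.discriminant : ℍ → ℂ)) ((5832 : ℤ) • deltaZ) :=
    hasQZ_discriminant.int_smul nice_discriminant 5832
  have hR := (mfq_den.mul mfq_f2).mul ((mfq_f4.mul mfq_f4).mul (mfq_f4.mul mfq_f4))
  have hser : (5832 : ℤ) • deltaZ =
      (BZ - BZ') * (BZ + (2 : ℤ) • BZ') *
        (((BZ - (4 : ℤ) • BZ') * (BZ - (4 : ℤ) • BZ')) *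
          ((BZ - (4 : ℤ) • BZ') * (BZ - (4 : ℤ) • BZ'))) := by
    rw [int_smul_eq_mul, int_smul_eq_mul, int_smul_eq_mul]
    push_cast
    rw [deltaZ_fact]
    ring
  exact HasQZ.eq_of (nice_discriminant.smul _) hR.mf.nice (hL.congr hser) hR.q

theorem denFun_ne_zero (z : ℍ) : (Bfun - Bfun') z ≠ 0 := by
  intro h
  have h1 := congrFun delta_fact_fun z
  simp only [Pi.smul_apply, Pi.mul_apply, smul_eq_mul] at h1
  rw [h, zero_mul, zero_mul] at h1
  have h2 : ModularForm.discriminant z ≠ 0 := ModularForm.discriminant_ne_zero z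
  exact h2 (by
    have h3 : ((5832 : ℤ) : ℂ) ≠ 0 := by norm_num
    exact (mul_eq_zero.mp h1).resolve_left h3)

/-- the Hauptmodul as a function on `ℍ` -/
def t4Fun : ℍ → ℂ := fun z =>
  (((8 : ℤ) : ℂ) • (((4 : ℤ) : ℂ) • Bfun' - Bfun)) z / (Bfun - Bfun') z

theorem isModFun_t4Fun : Bridge.IsModFun 4 t4Fun :=
  Bridge.isModFun_div_of_isMF mfq_num.mf mfq_den.mf denFun_ne_zero

/-! ### the `q`-expansion of `t₄` on `ℍ` -/

/-- coefficientwise `ℤ → ℂ` -/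
abbrev toCZ : PowerSeries ℤ →+* PowerSeries ℂ := PowerSeries.map (Int.castRingHom ℂ)

theorem rep_of_hasQZ {f : ℍ → ℂ} {a : PowerSeries ℤ} (hf : Nice f) (ha : HasQZ f a) :
    Rep 1 (toCZ a) f := fun z => by
  have := ha.hasSum hf z
  simp only [smul_eq_mul] at this
  rw [Fermat.Agent.S24.JPoly.qq_one]
  convert this using 2 with n
  rw [PowerSeries.coeff_map]
  rfl

theorem numZ_eq : (8 : ℤ) • ((4 : ℤ) • BZ' - BZ) = 24 * (1 + 8 * (4 * Vop 2 bZ - bZ)) := by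
  rw [int_smul_eq_mul, int_smul_eq_mul, BZ_eq, BZ'_eq]
  push_cast
  ring

theorem denZ_eq : BZ - BZ' = PowerSeries.X ^ 1 * (24 * vZ) := by
  rw [BZ_eq, BZ'_eq, pow_one]
  have := bZ_sub
  linear_combination (24 : PowerSeries ℤ) * this

theorem TZ_mul_den : TZ * (BZ - BZ') = (8 : ℤ) • ((4 : ℤ) • BZ' - BZ) * PowerSeries.X ^ 1 := by
  rw [numZ_eq, denZ_eq, TZ]
  have := vZ_mul_wZ
  linear_combination (24 * (1 + 8 * (4 * Vop 2 bZ - bZ)) * PowerSeries.X ^ 1 : PowerSeries ℤ) * this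

theorem toCZ_injective : Function.Injective toCZ := by
  intro a b h
  ext n
  have := congrArg (PowerSeries.coeff n) h
  simpa [toCZ] using this

theorem rep_t4Fun : Rep 1 (toCZ TZ) (fun z => t4Fun z * qq 1 z ^ 1) := by
  have hU : toCZ (BZ - BZ') = PowerSeries.X ^ 1 * toCZ (24 * vZ) := by
    rw [denZ_eq, map_mul, map_pow, PowerSeries.map_X]
  have hden : Rep 1 (PowerSeries.X ^ 1 * toCZ (24 * vZ)) (Bfun - Bfun') := by
    have := rep_of_hasQZ mfq_den.mf.nice mfq_den.q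
    rwa [hU] at this
  have hu : PowerSeries.coeff 0 (toCZ (24 * vZ)) ≠ 0 := by
    rw [PowerSeries.coeff_map, PowerSeries.coeff_zero_eq_constantCoeff_apply, map_mul,
      constantCoeff_vZ, map_ofNat]
    norm_num
  obtain ⟨c, hc⟩ := Bridge.rep_inv_of_ne_zero' 1 mfq_den.mf.1 hden denFun_ne_zero hu
  have hnum := rep_of_hasQZ mfq_num.mf.nice mfq_num.q
  -- `c · (q · u) = q`
  have hcmul : c * (PowerSeries.X ^ 1 * toCZ (24 * vZ)) = PowerSeries.X ^ 1 := by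
    have h1 := (hc.mul hden).congr (g' := fun z => qq 1 z ^ 1) fun z => by
      have := denFun_ne_zero z
      field_simp
    exact h1.unique ((Fermat.Agent.S24.JPoly.Rep.X (N := 1)).pow 1)
  have hne : (PowerSeries.X ^ 1 * toCZ (24 * vZ) : PowerSeries ℂ) ≠ 0 := by
    intro h0
    rw [h0, mul_zero] at hcmul
    exact (pow_ne_zero 1 PowerSeries.X_ne_zero) hcmul.symm
  have h2 : toCZ TZ * toCZ (BZ - BZ') =
      toCZ ((8 : ℤ) • ((4 : ℤ) • BZ' - BZ)) * PowerSeries.X ^ 1 := by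
    have := congrArg toCZ TZ_mul_den
    rw [map_mul, map_mul, map_pow, PowerSeries.map_X] at this
    exact this
  have hkey : toCZ ((8 : ℤ) • ((4 : ℤ) • BZ' - BZ)) * c = toCZ TZ := by
    apply mul_right_cancel₀ hne
    rw [mul_assoc, hcmul, ← hU, h2]
  have hprod := hnum.mul hc
  rw [hkey] at hprod
  refine hprod.congr fun z => ?_
  simp only [t4Fun]
  ring

/-- **`t₄ ∈ F₄`** -/
theorem t4_mem_full : t4 ∈ modularFunctionFieldFull 4 := by
  have hP : Rep 1 ((TZ.map (Int.castRingHom ℚ)).map (algebraMap ℚ ℂ))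
      (fun z => t4Fun z * qq 1 z ^ 1) := by
    have e : (TZ.map (Int.castRingHom ℚ)).map (algebraMap ℚ ℂ) = toCZ TZ := by
      ext n
      simp [toCZ]
    rw [e]
    exact rep_t4Fun
  have := Bridge.Main.mem_full_of_isModFun isModFun_t4Fun 1 (TZ.map (Int.castRingHom ℚ)) hP
  rw [Bridge.Main.serQ] at this
  rw [t4_eq, iota_apply]
  simpa using this

/-! ### `ℚ(t₄) = F₄` -/

open IntermediateField in
theorem jq_mem_adjoin_t4 : jq ∈ ℚ⟮t4⟯ := by
  have ht : t4 ∈ ℚ⟮t4⟯ := mem_adjoin_simple_self ℚ t4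
  have hden : t4 ^ 4 * (t4 + 16) ≠ 0 :=
    mul_ne_zero (pow_ne_zero _ t4_ne_zero) t4_add_sixteen_ne_zero
  have h : jq = (t4 ^ 2 + 256 * t4 + 4096) ^ 3 / (t4 ^ 4 * (t4 + 16)) := by
    rw [eq_div_iff hden]; exact jq_mul
  have h16 : (16 : LaurentSeries ℚ) ∈ ℚ⟮t4⟯ := ofNat_mem _ 16
  have h256 : (256 : LaurentSeries ℚ) ∈ ℚ⟮t4⟯ := ofNat_mem _ 256
  have h4096 : (4096 : LaurentSeries ℚ) ∈ ℚ⟮t4⟯ := ofNat_mem _ 4096
  rw [h]
  exact div_mem (pow_mem (add_mem (add_mem (pow_mem ht 2) (mul_mem h256 ht)) h4096) 3)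
    (mul_mem (pow_mem ht 4) (add_mem ht h16))

open IntermediateField in
theorem jq2_mem_adjoin_t4 : qExpand ℚ 2 jq ∈ ℚ⟮t4⟯ := by
  have ht : t4 ∈ ℚ⟮t4⟯ := mem_adjoin_simple_self ℚ t4
  have hden : t4 ^ 2 * (t4 + 16) ^ 2 ≠ 0 :=
    mul_ne_zero (pow_ne_zero _ t4_ne_zero) (pow_ne_zero _ t4_add_sixteen_ne_zero)
  have h : qExpand ℚ 2 jq = (t4 ^ 2 + 16 * t4 + 256) ^ 3 / (t4 ^ 2 * (t4 + 16) ^ 2) := by
    rw [eq_div_iff hden]; exact jq2_mul
  have h16 : (16 : LaurentSeries ℚ) ∈ ℚ⟮t4⟯ := ofNat_mem _ 16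
  have h256 : (256 : LaurentSeries ℚ) ∈ ℚ⟮t4⟯ := ofNat_mem _ 256
  rw [h]
  exact div_mem (pow_mem (add_mem (add_mem (pow_mem ht 2) (mul_mem h16 ht)) h256) 3)
    (mul_mem (pow_mem ht 2) (pow_mem (add_mem ht h16) 2))

open IntermediateField in
theorem jq4_mem_adjoin_t4 : qExpand ℚ 4 jq ∈ ℚ⟮t4⟯ := by
  have ht : t4 ∈ ℚ⟮t4⟯ := mem_adjoin_simple_self ℚ t4
  have hden : t4 * (t4 + 16) ≠ 0 := mul_ne_zero t4_ne_zero t4_add_sixteen_ne_zero
  have h : qExpand ℚ 4 jq = (t4 ^ 2 + 16 * t4 + 16) ^ 3 / (t4 * (t4 + 16)) := by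
    rw [eq_div_iff hden]; exact jq4_mul
  have h16 : (16 : LaurentSeries ℚ) ∈ ℚ⟮t4⟯ := ofNat_mem _ 16
  rw [h]
  exact div_mem (pow_mem (add_mem (add_mem (pow_mem ht 2) (mul_mem h16 ht)) h16) 3)
    (mul_mem ht (add_mem ht h16))

open IntermediateField in
/-- **`ℚ(t₄) = ℚ(j(q), j(q²), j(q⁴))`**: `t₄` is a Hauptmodul. -/
theorem adjoin_t4 : ℚ⟮t4⟯ = modularFunctionFieldFull 4 := by
  apply le_antisymm
  · rw [adjoin_simple_le_iff]
    exact t4_mem_full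
  · rw [modularFunctionFieldFull, adjoin_le_iff]
    rintro x ⟨d, hne, hd, rfl⟩
    have hd4 : d ≤ 4 := Nat.le_of_dvd (by norm_num) hd
    have hd0 : d ≠ 0 := NeZero.ne d
    interval_cases d
    · exact absurd rfl hd0
    · rw [qExpand_one_apply]; exact jq_mem_adjoin_t4
    · exact jq2_mem_adjoin_t4
    · exact absurd hd (by norm_num)
    · exact jq4_mem_adjoin_t4

open IntermediateField in
/-- `t₄` is transcendental over `ℚ`. -/
theorem transcendental_t4 : Transcendental ℚ t4 := by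
  intro halg
  have h1 := isAlgebraic_adjoin_simple halg.isIntegral
  have h2 := h1.isAlgebraic (⟨jq, jq_mem_adjoin_t4⟩ : ℚ⟮t4⟯)
  have h3 : IsAlgebraic ℚ jq := IntermediateField.isAlgebraic_iff.mp h2
  exact Fermat.Agent.S28.RegDegree.transcendental_jq h3

end

end Fermat.Agent.S18.Haupt
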