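/-
S18, block D, leaf (D4a), part 4 (helper13): the Hauptmodul `t₄` of `Γ₀(4)` with coefficients in an
arbitrary commutative ring `R` (in particular a field of characteristic `ℓ`), and the relations
with `j(q)`, `j(q²)`, `j(q⁴)` in `R((q))`.  For a field `k`:
`modularFunctionFieldFullC k 4 ≤ k(t₄)`.
-/
import Mathlib
import Fermat.Prelude.Def_ModularCurve_X0ModL
import Fermat.Agent.S18.Haupt.Level4Mem

set_option autoImplicit false

namespace Fermat.Agent.S18.Haupt

open ModularCurve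

noncomputable section

section Ring

variable (R : Type*) [CommRing R]

/-- the Hauptmodul `t₄ = q⁻¹ · T(q)` with coefficients in `R` -/
def t4C : LaurentSeries R :=
  HahnSeries.single (-1 : ℤ) 1 * HahnSeries.ofPowerSeries ℤ R (TZ.map (Int.castRingHom R))

variable {R} in
theorem coeffMap_t4C {S : Type*} [CommRing S] (f : R →+* S) : coeffMap f (t4C R) = t4C S := by
  rw [t4C, map_mul, coeffMap_single, map_one, coeffMap_ofPowerSeries,
    ← RingHom.comp_apply (PowerSeries.map f) (PowerSeries.map (Int.castRingHom R)),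
    ← PowerSeries.map_comp, RingHom.ext_int (f.comp (Int.castRingHom R)) (Int.castRingHom S)]
  rfl

theorem t4C_rat : t4C ℚ = t4 := t4_eq.symm

theorem coeffMap_intCast_injective :
    Function.Injective (coeffMap (Int.castRingHom ℚ)) := by
  intro x y h
  ext k
  have := congrArg (fun z : LaurentSeries ℚ => z.coeff k) h
  simp only [coeffMap_coeff] at this
  exact Int.cast_injective this

theorem jqModC_mul_int :
    jqModC ℤ * (t4C ℤ ^ 4 * (t4C ℤ + 16)) = (t4C ℤ ^ 2 + 256 * t4C ℤ + 4096) ^ 3 := by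
  apply coeffMap_intCast_injective
  simp only [map_mul, map_pow, map_add, map_ofNat, coeffMap_jqModC, coeffMap_t4C]
  rw [jqModC_rat, t4C_rat]
  exact jq_mul

theorem jqModC2_mul_int :
    qExpand ℤ 2 (jqModC ℤ) * (t4C ℤ ^ 2 * (t4C ℤ + 16) ^ 2) =
      (t4C ℤ ^ 2 + 16 * t4C ℤ + 256) ^ 3 := by
  apply coeffMap_intCast_injective
  simp only [map_mul, map_pow, map_add, map_ofNat, coeffMap_qExpand, coeffMap_jqModC, coeffMap_t4C]
  rw [jqModC_rat, t4C_rat]
  exact jq2_mul

theorem jqModC4_mul_int :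
    qExpand ℤ 4 (jqModC ℤ) * (t4C ℤ * (t4C ℤ + 16)) =
      (t4C ℤ ^ 2 + 16 * t4C ℤ + 16) ^ 3 := by
  apply coeffMap_intCast_injective
  simp only [map_mul, map_pow, map_add, map_ofNat, coeffMap_qExpand, coeffMap_jqModC, coeffMap_t4C]
  rw [jqModC_rat, t4C_rat]
  exact jq4_mul

/-- **`j t⁴ (t + 16) = (t² + 256 t + 4096)³` over any coefficient ring.** -/
theorem jqModC_mul :
    jqModC R * (t4C R ^ 4 * (t4C R + 16)) = (t4C R ^ 2 + 256 * t4C R + 4096) ^ 3 := by
  have h := congrArg (coeffMap (Int.castRingHom R)) jqModC_mul_int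
  simpa only [map_mul, map_pow, map_add, map_ofNat, coeffMap_jqModC, coeffMap_t4C] using h

/-- **`j(q²) t² (t + 16)² = (t² + 16 t + 256)³` over any coefficient ring.** -/
theorem jqModC2_mul :
    qExpand R 2 (jqModC R) * (t4C R ^ 2 * (t4C R + 16) ^ 2) =
      (t4C R ^ 2 + 16 * t4C R + 256) ^ 3 := by
  have h := congrArg (coeffMap (Int.castRingHom R)) jqModC2_mul_int
  simpa only [map_mul, map_pow, map_add, map_ofNat, coeffMap_qExpand, coeffMap_jqModC,
    coeffMap_t4C] using h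

/-- **`j(q⁴) t (t + 16) = (t² + 16 t + 16)³` over any coefficient ring.** -/
theorem jqModC4_mul :
    qExpand R 4 (jqModC R) * (t4C R * (t4C R + 16)) =
      (t4C R ^ 2 + 16 * t4C R + 16) ^ 3 := by
  have h := congrArg (coeffMap (Int.castRingHom R)) jqModC4_mul_int
  simpa only [map_mul, map_pow, map_add, map_ofNat, coeffMap_qExpand, coeffMap_jqModC,
    coeffMap_t4C] using h

/-- the leading coefficient of `t₄` -/
theorem coeff_t4C_neg_one : (t4C R).coeff (-1 : ℤ) = 1 := by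
  rw [t4C, HahnSeries.coeff_single_mul, one_mul, sub_neg_eq_add, neg_add_cancel,
    show (0 : ℤ) = ((0 : ℕ) : ℤ) from rfl, HahnSeries.ofPowerSeries_apply_coeff,
    PowerSeries.coeff_map, PowerSeries.coeff_zero_eq_constantCoeff_apply, constantCoeff_TZ]
  simp

theorem coeff_t4C_of_lt {k : ℤ} (hk : k < -1) : (t4C R).coeff k = 0 := by
  rw [t4C, HahnSeries.coeff_single_mul, one_mul]
  exact ofPowerSeries_coeff_of_neg _ (by omega)

theorem coeff_natCast_neg_one (n : ℕ) : ((n : LaurentSeries R)).coeff (-1 : ℤ) = 0 := by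
  have : (n : LaurentSeries R) = HahnSeries.single (0 : ℤ) (n : R) := by
    have h := map_natCast (HahnSeries.C : R →+* LaurentSeries R) n
    rw [← h]
    rfl
  rw [this, HahnSeries.coeff_single_of_ne (by norm_num)]

theorem t4C_ne_zero [Nontrivial R] : t4C R ≠ 0 := fun h => by
  have := coeff_t4C_neg_one R
  rw [h] at this
  simp at this

theorem t4C_add_natCast_ne_zero [Nontrivial R] (n : ℕ) : t4C R + (n : LaurentSeries R) ≠ 0 :=
  fun h => by
  have h1 := congrArg (fun x : LaurentSeries R => x.coeff (-1 : ℤ)) h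
  simp only [HahnSeries.coeff_add, coeff_t4C_neg_one, coeff_natCast_neg_one, add_zero,
    HahnSeries.coeff_zero] at h1
  exact one_ne_zero h1

theorem t4C_add_sixteen_ne_zero [Nontrivial R] : t4C R + 16 ≠ 0 := by
  have := t4C_add_natCast_ne_zero R 16
  simpa using this

end Ring

section Field

open IntermediateField

variable (k : Type*) [Field k]

theorem jqModC_mem_adjoin_t4C : jqModC k ∈ k⟮t4C k⟯ := by
  have ht : t4C k ∈ k⟮t4C k⟯ := mem_adjoin_simple_self k (t4C k)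
  have hden : t4C k ^ 4 * (t4C k + 16) ≠ 0 :=
    mul_ne_zero (pow_ne_zero _ (t4C_ne_zero k)) (t4C_add_sixteen_ne_zero k)
  have h : jqModC k = (t4C k ^ 2 + 256 * t4C k + 4096) ^ 3 / (t4C k ^ 4 * (t4C k + 16)) := by
    rw [eq_div_iff hden]; exact jqModC_mul k
  have h16 : (16 : LaurentSeries k) ∈ k⟮t4C k⟯ := ofNat_mem _ 16
  have h256 : (256 : LaurentSeries k) ∈ k⟮t4C k⟯ := ofNat_mem _ 256
  have h4096 : (4096 : LaurentSeries k) ∈ k⟮t4C k⟯ := ofNat_mem _ 4096
  rw [h]
  exact div_mem (pow_mem (add_mem (add_mem (pow_mem ht 2) (mul_mem h256 ht)) h4096) 3)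
    (mul_mem (pow_mem ht 4) (add_mem ht h16))

theorem jqModC2_mem_adjoin_t4C : qExpand k 2 (jqModC k) ∈ k⟮t4C k⟯ := by
  have ht : t4C k ∈ k⟮t4C k⟯ := mem_adjoin_simple_self k (t4C k)
  have hden : t4C k ^ 2 * (t4C k + 16) ^ 2 ≠ 0 :=
    mul_ne_zero (pow_ne_zero _ (t4C_ne_zero k)) (pow_ne_zero _ (t4C_add_sixteen_ne_zero k))
  have h : qExpand k 2 (jqModC k) =
      (t4C k ^ 2 + 16 * t4C k + 256) ^ 3 / (t4C k ^ 2 * (t4C k + 16) ^ 2) := by
    rw [eq_div_iff hden]; exact jqModC2_mul k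
  have h16 : (16 : LaurentSeries k) ∈ k⟮t4C k⟯ := ofNat_mem _ 16
  have h256 : (256 : LaurentSeries k) ∈ k⟮t4C k⟯ := ofNat_mem _ 256
  rw [h]
  exact div_mem (pow_mem (add_mem (add_mem (pow_mem ht 2) (mul_mem h16 ht)) h256) 3)
    (mul_mem (pow_mem ht 2) (pow_mem (add_mem ht h16) 2))

theorem jqModC4_mem_adjoin_t4C : qExpand k 4 (jqModC k) ∈ k⟮t4C k⟯ := by
  have ht : t4C k ∈ k⟮t4C k⟯ := mem_adjoin_simple_self k (t4C k)
  have hden : t4C k * (t4C k + 16) ≠ 0 :=
    mul_ne_zero (t4C_ne_zero k) (t4C_add_sixteen_ne_zero k)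
  have h : qExpand k 4 (jqModC k) =
      (t4C k ^ 2 + 16 * t4C k + 16) ^ 3 / (t4C k * (t4C k + 16)) := by
    rw [eq_div_iff hden]; exact jqModC4_mul k
  have h16 : (16 : LaurentSeries k) ∈ k⟮t4C k⟯ := ofNat_mem _ 16
  rw [h]
  exact div_mem (pow_mem (add_mem (add_mem (pow_mem ht 2) (mul_mem h16 ht)) h16) 3)
    (mul_mem ht (add_mem ht h16))

/-- **`F_k(4) = k(j̄(q), j̄(q²), j̄(q⁴)) ≤ k(t̄₄)`** for every field `k`. -/
theorem fullC_four_le_adjoin_t4C : modularFunctionFieldFullC k 4 ≤ k⟮t4C k⟯ := by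
  rw [modularFunctionFieldFullC, adjoin_le_iff]
  rintro x ⟨d, hne, hd, rfl⟩
  have hd4 : d ≤ 4 := Nat.le_of_dvd (by norm_num) hd
  have hd0 : d ≠ 0 := NeZero.ne d
  interval_cases d
  · exact absurd rfl hd0
  · rw [qExpand_one_apply]; exact jqModC_mem_adjoin_t4C k
  · exact jqModC2_mem_adjoin_t4C k
  · exact absurd hd (by norm_num)
  · exact jqModC4_mem_adjoin_t4C k

end Field

end

end Fermat.Agent.S18.Haupt
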