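import Mathlib
import Fermat.Agent.S28.ExportFinal
import Fermat.Agent.S28.RegDegree

set_option autoImplicit false

/-!
# S18, block D4: `[ℚ(j(q^d) : d ∣ N) : ℚ(j)] = ψ(N)` over `ℚ`

`1, j_N, …, j_N^{ψ(N)-1}` (`j_N = j(q^N)`) are linearly independent over `ℚ(j)` inside `ℚ((q))`
(`linearIndependent_pow_jqN`; from `S28.ExportFinal.eq_zero_rat` at a prime `ℓ ∤ N`, after clearing
denominators).  With the upper bound `S28.RegDegree.finrank_le_psi` this gives

* `finrank_full_eq_psi` / `relfinrank_full` : `[modularFunctionFieldFull N : ℚ(j)] = ψ(N)`,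
* `relfinrank_modularFunctionField` : `[ℚ(j, j_N) : ℚ(j)] = ψ(N)`,
* `modularFunctionField_eq_full` : `ℚ(j, j_N) = ℚ(j(q^d) : d ∣ N)`.
-/

namespace Fermat.Agent.S18.Haupt.DegreeRat

open Polynomial IntermediateField ModularCurve
open Fermat.Agent.S28 Fermat.Agent.S28.RegDegree

noncomputable section

variable (N : ℕ) [NeZero N]

local notation "L" => LaurentSeries ℚ

/-- every element of `ℚ(j)` is a quotient of polynomials in `j` with nonzero denominator -/
theorem exists_num_denom (c : ↥ℚ⟮jq⟯) :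
    ∃ r s : ℚ[X], aeval jq s ≠ 0 ∧ (c : L) * aeval jq s = aeval jq r := by
  obtain ⟨r, s, hrs⟩ := (mem_adjoin_simple_iff ℚ (c : L)).mp c.2
  by_cases hs : aeval jq s = 0
  · refine ⟨0, 1, by simp, ?_⟩
    rw [hrs, hs, div_zero, zero_mul, map_zero]
  · exact ⟨r, s, hs, by rw [hrs, div_mul_cancel₀ _ hs]⟩

/-- there is a prime not dividing `N` -/
theorem exists_prime_not_dvd : ∃ ℓ : ℕ, ℓ.Prime ∧ ¬ ℓ ∣ N := by
  obtain ⟨ℓ, hℓ, hp⟩ := Nat.exists_infinite_primes (N + 1)
  exact ⟨ℓ, hp, fun h => by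
    have := Nat.le_of_dvd (Nat.pos_of_ne_zero (NeZero.ne N)) h
    omega⟩

/-- **`1, j_N, …, j_N^{ψ(N)-1}` are linearly independent over `ℚ(j)`.** -/
theorem linearIndependent_pow_jqN :
    LinearIndependent ↥ℚ⟮jq⟯ (fun i : Fin (dedekindPsi N) => (jqN N) ^ (i : ℕ)) := by
  classical
  obtain ⟨ℓ, hℓ, hℓN⟩ := exists_prime_not_dvd N
  have : Fact ℓ.Prime := ⟨hℓ⟩
  rw [Fintype.linearIndependent_iff]
  intro c hc i₀
  choose r s hs hrs using fun i => exists_num_denom (c i)
  set d : ℚ[X] := ∏ i, s i with hd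
  set p : Fin (dedekindPsi N) → ℚ[X] := fun i => r i * ∏ k ∈ Finset.univ.erase i, s k with hp
  have hd0 : aeval jq d ≠ 0 := by
    rw [hd, map_prod]
    exact Finset.prod_ne_zero_iff.mpr fun i _ => hs i
  have hcp : ∀ i, ((c i : ↥ℚ⟮jq⟯) : L) * aeval jq d = aeval jq (p i) := by
    intro i
    rw [hd, hp, ← Finset.mul_prod_erase Finset.univ s (Finset.mem_univ i), map_mul, map_mul,
      ← mul_assoc, hrs i]
  set G : Polynomial (Polynomial ℚ) := ∑ i : Fin (dedekindPsi N), C (p i) * X ^ (i : ℕ) with hG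
  have hcoeff : ∀ k : ℕ, G.coeff k = ∑ i : Fin (dedekindPsi N), if k = (i : ℕ) then p i else 0 := by
    intro k
    rw [hG, finsetSum_coeff]
    refine Finset.sum_congr rfl fun i _ => ?_
    rw [coeff_C_mul, coeff_X_pow]
    split_ifs <;> simp
  have hdeg : ∀ k, dedekindPsi N ≤ k → G.coeff k = 0 := by
    intro k hk
    rw [hcoeff]
    refine Finset.sum_eq_zero fun i _ => ?_
    rw [if_neg]
    have := i.2
    omega
  have hGi : ∀ i : Fin (dedekindPsi N), G.coeff (i : ℕ) = p i := by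
    intro i
    rw [hcoeff, Finset.sum_eq_single i]
    · rw [if_pos rfl]
    · intro j _ hji
      rw [if_neg]
      exact fun h => hji (Fin.ext h.symm)
    · intro h; exact absurd (Finset.mem_univ i) h
  have hev : Export.ev2 ℚ N G = 0 := by
    rw [Export.ev2_eq_sum hdeg]
    have : ∀ i : Fin (dedekindPsi N), Export.ev1 ℚ (G.coeff (i : ℕ)) * (jqNModC ℚ N) ^ (i : ℕ)
        = aeval jq d * (c i • (jqN N) ^ (i : ℕ)) := by
      intro i
      rw [hGi, Export.ev1_eq_aeval, jqModC_rat, jqNModC_rat, ← hcp i, IntermediateField.smul_def]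
      simp only [smul_eq_mul]
      ring
    rw [Finset.sum_congr rfl fun i _ => this i, ← Finset.mul_sum, hc, mul_zero]
  have hG0 : G = 0 := ExportFinal.eq_zero_rat N ℓ hℓN hdeg hev
  have hp0 : p i₀ = 0 := by rw [← hGi, hG0, coeff_zero]
  have h1 := hcp i₀
  rw [hp0, map_zero] at h1
  have h2 : ((c i₀ : ↥ℚ⟮jq⟯) : L) = 0 := (mul_eq_zero.mp h1).resolve_right hd0
  exact Subtype.ext h2

/-! ### degrees -/

/-- a subfield of `ℚ((q))` containing `ℚ(j)` and `j_N` has degree at least `ψ(N)` over `ℚ(j)` -/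
theorem psi_le_finrank_of_mem (E : IntermediateField ℚ L) (hj : ℚ⟮jq⟯ ≤ E) (hjN : jqN N ∈ E)
    [FiniteDimensional ↥ℚ⟮jq⟯ ↥(extendScalars hj)] :
    dedekindPsi N ≤ Module.finrank ↥ℚ⟮jq⟯ ↥(extendScalars hj) := by
  have hmem : ∀ i : Fin (dedekindPsi N), (jqN N) ^ (i : ℕ) ∈ extendScalars hj := fun i =>
    pow_mem (show jqN N ∈ extendScalars hj from hjN) _
  have hv : LinearIndependent ↥ℚ⟮jq⟯
      (fun i : Fin (dedekindPsi N) => (⟨(jqN N) ^ (i : ℕ), hmem i⟩ : ↥(extendScalars hj))) := by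
    apply LinearIndependent.of_comp (extendScalars hj).val.toLinearMap
    exact linearIndependent_pow_jqN N
  have := hv.fintype_card_le_finrank
  simpa using this

theorem jqN_mem_full : jqN N ∈ modularFunctionFieldFull N := jqd_mem_full N dvd_rfl

/-- `ψ(N) ≤ [F_N : ℚ(j)]` -/
theorem psi_le_finrank_full :
    dedekindPsi N ≤ Module.finrank ↥ℚ⟮jq⟯ ↥(extendScalars (adjoin_jq_le_full' N)) := by
  have := finiteDimensional_full N
  exact psi_le_finrank_of_mem N _ (adjoin_jq_le_full' N) (jqN_mem_full N)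

/-- **`[ℚ(j(q^d) : d ∣ N) : ℚ(j)] = ψ(N)`** -/
theorem finrank_full_eq_psi :
    Module.finrank ↥ℚ⟮jq⟯ ↥(extendScalars (adjoin_jq_le_full' N)) = dedekindPsi N :=
  le_antisymm (finrank_le_psi N) (psi_le_finrank_full N)

/-- the same, as a relative degree -/
theorem relfinrank_full :
    relfinrank ℚ⟮jq⟯ (modularFunctionFieldFull N) = dedekindPsi N := by
  rw [relfinrank_eq_finrank_of_le (adjoin_jq_le_full' N)]
  exact finrank_full_eq_psi N

theorem adjoin_jq_le_modularFunctionField : ℚ⟮jq⟯ ≤ modularFunctionField N := by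
  rw [adjoin_simple_le_iff]
  exact jq_mem N

/-- **`ℚ(j, j_N) = ℚ(j(q^d) : d ∣ N)`** -/
theorem modularFunctionField_eq_full : modularFunctionField N = modularFunctionFieldFull N := by
  have hle := modularFunctionField_le_full N
  have := finiteDimensional_full N
  have hle' : extendScalars (adjoin_jq_le_modularFunctionField N) ≤
      extendScalars (adjoin_jq_le_full' N) := fun x hx => hle hx
  have : FiniteDimensional ↥ℚ⟮jq⟯ ↥(extendScalars (adjoin_jq_le_modularFunctionField N)) :=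
    FiniteDimensional.of_injective (IntermediateField.inclusion hle').toLinearMap
      (IntermediateField.inclusion hle').injective
  have h1 := psi_le_finrank_of_mem N _ (adjoin_jq_le_modularFunctionField N) (jqN_mem N)
  have h2 := finrank_full_eq_psi N
  have h3 := IntermediateField.eq_of_le_of_finrank_le hle' (by rw [h2]; exact h1)
  apply le_antisymm hle
  intro x hx
  have : x ∈ extendScalars (adjoin_jq_le_full' N) := hx
  rw [← h3] at this
  exact this

/-- `[ℚ(j, j_N) : ℚ(j)] = ψ(N)` -/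
theorem relfinrank_modularFunctionField :
    relfinrank ℚ⟮jq⟯ (modularFunctionField N) = dedekindPsi N := by
  rw [modularFunctionField_eq_full]
  exact relfinrank_full N

end

end Fermat.Agent.S18.Haupt.DegreeRat
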