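/-
S18, block D, glue (D4a) ↔ (D5) (helper13): the Hauptmodul `t₄` of `Γ₀(4)` as an element of
`FF M = modularFunctionFieldBar M` (`4 ∣ M`), its relations with `J`, `J₂`, `J₄`, and the
unconditional form of helper4's (D5): `FF M / K(t₄)` is unramified outside `t₄ = ∞, 0, -16`.
-/
import Mathlib
import Fermat.Agent.S18.Haupt.Level4Mem
import Fermat.Agent.S18.NoElliptic.Transport

set_option autoImplicit false

namespace Fermat.Agent.S18.Haupt

open AlgebraicCurve ModularCurve Fermat.Agent.S24 Fermat.Agent.S24.BridgeInv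
  Fermat.Agent.S24.PlaceAt Fermat.Agent.S18.NoElliptic

noncomputable section

variable (M : ℕ) [NeZero M]

/-- `t₄` as an element of `FF M`, `4 ∣ M`. -/
def t4Bar (h4 : 4 ∣ M) : FF M := ratT M t4 (mem_full_of_dvd M h4 t4_mem_full)

@[simp] theorem coe_t4Bar (h4 : 4 ∣ M) :
    ((t4Bar M h4 : FF M) : LaurentSeries Kbar) = coeffEmb Kbar t4 := rfl

/-- `j` in the shape of (D5) -/
theorem jq_mul' : jq * t4 ^ 4 * (t4 + 16) = (t4 ^ 2 + 256 * t4 + 4096) ^ 3 := by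
  rw [mul_assoc]; exact jq_mul

/-- **`J t⁴ (t + 16) = (t² + 256 t + 4096)³` in `FF M`.** -/
theorem J_mul_t4Bar (h4 : 4 ∣ M) :
    J M * t4Bar M h4 ^ 4 * (t4Bar M h4 + 16) =
      (t4Bar M h4 ^ 2 + 256 * t4Bar M h4 + 4096) ^ 3 := by
  apply Subtype.ext
  have h := congrArg (coeffEmb Kbar) jq_mul'
  simp only [map_mul, map_pow, map_add, map_ofNat] at h
  have hJ : ((J M : FF M) : LaurentSeries Kbar) = coeffEmb Kbar jq := by
    show coeffEmb Kbar (qExpand ℚ 1 jq) = coeffEmb Kbar jq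
    rw [qExpand_one_apply]
  push_cast
  rw [hJ, coe_t4Bar]
  exact h

/-- **`J₂ t² (t + 16)² = (t² + 16 t + 256)³` in `FF M`.** -/
theorem J2_mul_t4Bar (h4 : 4 ∣ M) :
    Jd M 2 (dvd_trans (by norm_num) h4) * (t4Bar M h4 ^ 2 * (t4Bar M h4 + 16) ^ 2) =
      (t4Bar M h4 ^ 2 + 16 * t4Bar M h4 + 256) ^ 3 := by
  apply Subtype.ext
  have h := congrArg (coeffEmb Kbar) jq2_mul
  simp only [map_mul, map_pow, map_add, map_ofNat] at h
  push_cast
  rw [coe_Jd, coe_t4Bar]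
  exact h

/-- **`J₄ t (t + 16) = (t² + 16 t + 16)³` in `FF M`.** -/
theorem J4_mul_t4Bar (h4 : 4 ∣ M) :
    Jd M 4 h4 * (t4Bar M h4 * (t4Bar M h4 + 16)) =
      (t4Bar M h4 ^ 2 + 16 * t4Bar M h4 + 16) ^ 3 := by
  apply Subtype.ext
  have h := congrArg (coeffEmb Kbar) jq4_mul
  simp only [map_mul, map_pow, map_add, map_ofNat] at h
  push_cast
  rw [coe_Jd, coe_t4Bar]
  exact h

/-- **(D5) at level `4 ∣ M`, unconditionally**: every place of `FF M` over a value `t₀ ≠ 0, -16` of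
the Hauptmodul `t₄` is unramified over the `t₄`-line. -/
theorem ord_t4Bar_sub_eq_one (h4 : 4 ∣ M) (v : Place Kbar (FF M)) (t0 : Kbar) (h0 : t0 ≠ 0)
    (h16 : t0 ≠ -16) (hv : 0 < v.ord (t4Bar M h4 - algebraMap Kbar (FF M) t0)) :
    v.ord (t4Bar M h4 - algebraMap Kbar (FF M) t0) = 1 :=
  ord_sub_eq_one_of_rat_four M h4 t4 t4_mem_full jq_mul' v t0 h0 h16 hv

end

end Fermat.Agent.S18.Haupt
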