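import Mathlib
import Fermat.Agent.S18.Haupt.DegreeOverT
import Fermat.Agent.S18.Haupt.Level4ModC
import Fermat.Agent.S18.Haupt.Level4D5
import Fermat.Agent.S18.Core.ConstOfIntegral
import Fermat.Agent.S24.FiniteFibres

/-!
# S18, block D4d: degrees over the `t`-line at level `4 ∣ M`

* any field `k` with `2 ≠ 0`: `(X² + 256 X + 4096)³` and `X⁴ (X + 16)` are coprime, so
  `[k(t̄) : k(j̄)] = 6` for `t̄ = t4C k`, `j̄ = jqModC k` inside `k((q))`
  (`relfinrank_jbar_tbar`), `relfinrank k(j̄) E = 6 * relfinrank k(t̄) E` for `k(t̄) ≤ E`, and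
  `F_{4,k} = k(t̄)` as soon as `[F_{4,k} : k(j̄)] = 6`;
* characteristic zero: `ψ(M) = 6 * [FF M : K(t)]` for `t = t4Bar M h4`, `K = ℚ̄`.
-/

set_option autoImplicit false
set_option linter.unusedSectionVars false
set_option linter.unusedVariables false

namespace Fermat.Agent.S18.Haupt.Level4Degree

open Polynomial IntermediateField ModularCurve Fermat.Agent.S18.Haupt
open Fermat.Agent.S18.Haupt.DegreeOverT

noncomputable section

section Polys

variable (k : Type*) [Field k]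

/-- `H = X² + 256 X + 4096`. -/
def Hp : k[X] := X ^ 2 + 256 * X + 4096

/-- the numerator `H³`. -/
def Rn : k[X] := Hp k ^ 3

/-- the denominator `X⁴ (X + 16)`. -/
def Dp : k[X] := X ^ 4 * (X + 16)

variable {k}

theorem isCoprime_Hp_X (h2 : (2 : k) ≠ 0) : IsCoprime (Hp k) X := by
  have h4096 : (4096 : k) ≠ 0 := by
    have : (4096 : k) = 2 ^ 12 := by norm_num
    rw [this]
    exact pow_ne_zero _ h2
  refine ⟨C (4096 : k)⁻¹, -(C (4096 : k)⁻¹ * (X + 256)), ?_⟩
  have hC : (C (4096 : k)⁻¹ : k[X]) * 4096 = 1 := by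
    rw [show (4096 : k[X]) = C (4096 : k) from (map_ofNat C 4096).symm, ← C_mul,
      inv_mul_cancel₀ h4096, C_1]
  rw [Hp]
  linear_combination hC

theorem isCoprime_Hp_X_add (h2 : (2 : k) ≠ 0) : IsCoprime (Hp k) (X + 16) := by
  have h256 : (256 : k) ≠ 0 := by
    have : (256 : k) = 2 ^ 8 := by norm_num
    rw [this]
    exact pow_ne_zero _ h2
  refine ⟨C (256 : k)⁻¹, -(C (256 : k)⁻¹ * (X + 240)), ?_⟩
  have hC : (C (256 : k)⁻¹ : k[X]) * 256 = 1 := by
    rw [show (256 : k[X]) = C (256 : k) from (map_ofNat C 256).symm, ← C_mul,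
      inv_mul_cancel₀ h256, C_1]
  rw [Hp]
  linear_combination hC

theorem isCoprime_Rn_Dp (h2 : (2 : k) ≠ 0) : IsCoprime (Rn k) (Dp k) := by
  rw [Rn, Dp]
  exact IsCoprime.pow_left
    (IsCoprime.mul_right (isCoprime_Hp_X h2).pow_right (isCoprime_Hp_X_add h2))

theorem natDegree_Rn : (Rn k).natDegree = 6 := by
  rw [Rn, Hp]
  compute_degree!

theorem natDegree_Dp : (Dp k).natDegree = 5 := by
  rw [Dp]
  compute_degree!

theorem Dp_ne_zero : Dp k ≠ 0 := by
  intro h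
  have := natDegree_Dp (k := k)
  rw [h, natDegree_zero] at this
  omega

theorem max_deg : max (Rn k).natDegree (Dp k).natDegree = 6 := by
  rw [natDegree_Rn, natDegree_Dp]
  rfl

theorem aeval_Rn {F : Type*} [Field F] [Algebra k F] (t : F) :
    aeval t (Rn k) = (t ^ 2 + 256 * t + 4096) ^ 3 := by
  rw [Rn, Hp]
  simp only [map_pow, map_add, map_mul, aeval_X, map_ofNat]

theorem aeval_Dp {F : Type*} [Field F] [Algebra k F] (t : F) :
    aeval t (Dp k) = t ^ 4 * (t + 16) := by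
  rw [Dp]
  simp only [map_pow, map_add, map_mul, aeval_X, map_ofNat]

end Polys

/-! ### any coefficient field with `2 ≠ 0` (in particular characteristic `ℓ` odd) -/

section ModL

variable (k : Type*) [Field k]

/-- `t̄ = q⁻¹ + …` is transcendental over `k`. -/
theorem transcendental_t4C : Transcendental k (t4C k) := by
  intro halg
  obtain ⟨c, hc⟩ := Fermat.Agent.S18.Core.ConstOfIntegral.exists_eq_C_of_isAlgebraic halg
  have h1 := coeff_t4C_neg_one k
  rw [hc, HahnSeries.C_apply, HahnSeries.coeff_single_of_ne (by norm_num)] at h1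
  exact zero_ne_one h1

theorem rel_t4C : jqModC k * aeval (t4C k) (Dp k) = aeval (t4C k) (Rn k) := by
  rw [aeval_Dp, aeval_Rn]
  exact jqModC_mul k

/-- **`[k(t̄) : k(j̄)] = 6`**. -/
theorem relfinrank_jbar_tbar (h2 : (2 : k) ≠ 0) :
    relfinrank k⟮jqModC k⟯ k⟮t4C k⟯ = 6 := by
  rw [relfinrank_eq (t4C k) (jqModC k) (transcendental_t4C k) (Rn k) (Dp k)
    (isCoprime_Rn_Dp h2) Dp_ne_zero (rel_t4C k), max_deg]

theorem adjoin_jbar_le_adjoin_tbar : k⟮jqModC k⟯ ≤ k⟮t4C k⟯ :=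
  adjoin_le_adjoin (t4C k) (jqModC k) (transcendental_t4C k) (Rn k) (Dp k) Dp_ne_zero
    (rel_t4C k)

/-- degrees over `k(j̄)` are six times degrees over `k(t̄)`. -/
theorem relfinrank_eq_six_mul (h2 : (2 : k) ≠ 0) (E : IntermediateField k (LaurentSeries k))
    (hE : k⟮t4C k⟯ ≤ E) :
    relfinrank k⟮jqModC k⟯ E = 6 * relfinrank k⟮t4C k⟯ E := by
  rw [← relfinrank_jbar_tbar k h2]
  exact (relfinrank_mul_relfinrank (adjoin_jbar_le_adjoin_tbar k) hE).symm

/-- **`F_{4,k} = k(t̄)`** as soon as `[F_{4,k} : k(j̄)] = 6 = ψ(4)`. -/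
theorem fullC_four_eq_adjoin (h2 : (2 : k) ≠ 0)
    (hdeg : relfinrank k⟮jqModC k⟯ (modularFunctionFieldFullC k 4) = 6) :
    modularFunctionFieldFullC k 4 = k⟮t4C k⟯ := by
  refine eq_adjoin_of_relfinrank (t4C k) (jqModC k) (transcendental_t4C k) (Rn k) (Dp k)
    (isCoprime_Rn_Dp h2) Dp_ne_zero (rel_t4C k) (by rw [max_deg]; norm_num)
    (modularFunctionFieldFullC k 4) ?_ (fullC_four_le_adjoin_t4C k) (by rw [max_deg]; exact hdeg)
  rw [adjoin_simple_le_iff]
  exact jqModC_mem_full k 4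

end ModL

/-! ### characteristic zero: `FF M` over `K(t)` -/

section CharZero

open Fermat.Agent.S24.BridgeInv Fermat.Agent.S24.PlaceAt Fermat.Agent.S24.FiniteFibres

variable (M : ℕ) [NeZero M] (h4 : 4 ∣ M)

theorem coe_t4Bar_eq : ((t4Bar M h4 : FF M) : LaurentSeries Kbar) = t4C Kbar := by
  rw [coe_t4Bar, ← t4C_rat, coeffEmb, coeffMap_t4C]

theorem transcendental_t4Bar : Transcendental Kbar (t4Bar M h4) := by
  intro halg
  apply transcendental_t4C Kbar
  have := halg.algebraMap (A := LaurentSeries Kbar)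
  rw [← coe_t4Bar_eq M h4]
  exact this

theorem rel_t4Bar : J M * aeval (t4Bar M h4) (Dp Kbar) = aeval (t4Bar M h4) (Rn Kbar) := by
  rw [aeval_Dp, aeval_Rn, ← mul_assoc]
  exact J_mul_t4Bar M h4

/-- `K(J) ≤ K(t)` inside `FF M`. -/
theorem adjoin_J_le_adjoin_t4Bar : Kbar⟮J M⟯ ≤ Kbar⟮t4Bar M h4⟯ :=
  adjoin_le_adjoin (t4Bar M h4) (J M) (transcendental_t4Bar M h4) (Rn Kbar) (Dp Kbar) Dp_ne_zero
    (rel_t4Bar M h4)

/-- **`[FF M : K(J)] = 6 * [FF M : K(t)]`**. -/
theorem finrank_J_eq_six_mul :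
    Module.finrank Kbar⟮J M⟯ (FF M) = 6 * Module.finrank Kbar⟮t4Bar M h4⟯ (FF M) := by
  rw [finrank_eq_mul (t4Bar M h4) (J M) (transcendental_t4Bar M h4) (Rn Kbar) (Dp Kbar)
    (isCoprime_Rn_Dp two_ne_zero) Dp_ne_zero (rel_t4Bar M h4), max_deg]

/-- **`ψ(M) = 6 * [FF M : K(t)]`**. -/
theorem psi_eq_six_mul :
    dedekindPsi M = 6 * Module.finrank Kbar⟮t4Bar M h4⟯ (FF M) := by
  rw [← finrank_J_eq_six_mul, T0 M]

/-- `FF M` is finite over `K(t)`. -/
theorem finiteDimensional_t4Bar : FiniteDimensional Kbar⟮t4Bar M h4⟯ (FF M) := by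
  apply FiniteDimensional.of_finrank_pos
  have h := psi_eq_six_mul M h4
  have hpos : 0 < dedekindPsi M := by
    rw [← T0 M]
    exact Module.finrank_pos
  omega

end CharZero

end

end Fermat.Agent.S18.Haupt.Level4Degree
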