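/-
S18, block D, glue (D4a) ↔ (D1/D2) (helper13): the Hauptmodul `t₄` inside the Gauss valuation
subring.  For any field `K` of characteristic `0`, `t4C K = coeffEmb K t₄` lies in
`laurentBaseChange K (modularFunctionFieldFull M)` (`4 ∣ M`), and for every Gauss-type pair
`(O', ρ)` (helper18's `IsGaussRed`): `t₄ ∈ O'`, `ρ t₄ = t4C k` (`= q⁻¹ + …`), `t₄` and `t₄ + 16`
are units of `O'`.
-/
import Mathlib
import Fermat.Agent.S18.Haupt.Level4ModC
import Fermat.Agent.S18.Gauss.Residue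

set_option autoImplicit false

namespace Fermat.Agent.S18.Haupt

open ModularCurve Fermat.Agent.S18.Gauss.Residue

noncomputable section

section CharZero

variable (K : Type*) [Field K] [Algebra ℚ K]

theorem t4C_eq_coeffEmb : t4C K = coeffEmb K t4 := by
  rw [← t4C_rat]
  exact (coeffMap_t4C (algebraMap ℚ K)).symm

/-- `t₄ ∈ F_M ⊗ K` for `4 ∣ M` -/
theorem t4C_mem_laurentBaseChange (M : ℕ) [NeZero M] (h4 : 4 ∣ M) :
    t4C K ∈ laurentBaseChange K (modularFunctionFieldFull M) := by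
  rw [t4C_eq_coeffEmb]
  exact coeffEmb_mem_laurentBaseChange K (full_degeneracy_le h4 t4_mem_full)

end CharZero

section Gauss

variable {K : Type*} [Field K] {A : ValuationSubring K} {k : Type*} [Field k] {π : A →+* k}
  {F : IntermediateField K (LaurentSeries K)} {O' : ValuationSubring F}
  {ρ : O' →+* LaurentSeries k}

theorem coeffMap_subtype_t4C (A : ValuationSubring K) : coeffMap A.subtype (t4C A) = t4C K :=
  coeffMap_t4C _

theorem coeffMap_pi_t4C (π : A →+* k) : coeffMap π (t4C A) = t4C k := coeffMap_t4C _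

variable (hG : IsGaussRed A π F O' ρ) (ht : t4C K ∈ F)
include hG

/-- `t₄` is Gauss-integral. -/
theorem t4C_mem_of_isGaussRed : (⟨t4C K, ht⟩ : F) ∈ O' := by
  have hy : coeffMap A.subtype (t4C A) ∈ F := by rw [coeffMap_subtype_t4C]; exact ht
  have h := hG.mem_of_integral (t4C A) hy
  have e : (⟨coeffMap A.subtype (t4C A), hy⟩ : F) = ⟨t4C K, ht⟩ :=
    Subtype.ext (coeffMap_subtype_t4C A)
  rwa [e] at h

/-- the reduction of `t₄` is `t4C k = q⁻¹ + …`. -/
theorem map_t4C_of_isGaussRed :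
    ρ ⟨⟨t4C K, ht⟩, t4C_mem_of_isGaussRed hG ht⟩ = t4C k := by
  have hy : coeffMap A.subtype (t4C A) ∈ F := by rw [coeffMap_subtype_t4C]; exact ht
  have hmem := hG.mem_of_integral (t4C A) hy
  have h := hG.map_integral (t4C A) hy hmem
  rw [coeffMap_pi_t4C π] at h
  rw [← h]
  congr 1
  exact Subtype.ext (Subtype.ext (coeffMap_subtype_t4C A).symm)

/-- `t₄` is a Gauss unit. -/
theorem valuation_t4C_of_isGaussRed : O'.valuation (⟨t4C K, ht⟩ : F) = 1 := by
  have h := hG.valuation_eq_one_of_map_ne_zero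
    (x := ⟨⟨t4C K, ht⟩, t4C_mem_of_isGaussRed hG ht⟩)
    (by rw [map_t4C_of_isGaussRed hG ht]; exact t4C_ne_zero k)
  exact h

/-- `t₄ + 16` is a Gauss unit. -/
theorem valuation_t4C_add_of_isGaussRed : O'.valuation ((⟨t4C K, ht⟩ : F) + 16) = 1 := by
  have h16 : (16 : F) ∈ O' := ofNat_mem _ 16
  have hmem : (⟨t4C K, ht⟩ : F) + 16 ∈ O' := add_mem (t4C_mem_of_isGaussRed hG ht) h16
  have hρ : ρ ⟨(⟨t4C K, ht⟩ : F) + 16, hmem⟩ = t4C k + 16 := by
    have e : (⟨(⟨t4C K, ht⟩ : F) + 16, hmem⟩ : O') =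
        ⟨⟨t4C K, ht⟩, t4C_mem_of_isGaussRed hG ht⟩ + 16 := rfl
    rw [e, map_add, map_t4C_of_isGaussRed hG ht, map_ofNat]
  exact hG.valuation_eq_one_of_map_ne_zero (x := ⟨_, hmem⟩)
    (by rw [hρ]; exact t4C_add_sixteen_ne_zero k)

end Gauss

end

end Fermat.Agent.S18.Haupt
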