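/-
S18, block D, leaf (D4-9 glue), part 1 (helper13): the Hauptmodul `t₉` of `Γ₀(9)` (helper21's
`Haupt9.tZ ∈ ℤ((q))`) with coefficients in an arbitrary commutative ring `R` (in particular a
field of characteristic `2`), and the relations with `j(q)`, `j(q³)`, `j(q⁹)` in `R((q))`.
For a field `k`: `modularFunctionFieldFullC k 9 ≤ k(t₉)`.
Level-9 twin of `Haupt/Level4ModC.lean`.
-/
import Mathlib
import Fermat.Prelude.Def_ModularCurve_X0ModL
import Fermat.Agent.S18.Haupt9.Series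

set_option autoImplicit false

namespace Fermat.Agent.S18.Haupt.Level9

open ModularCurve
open Fermat.Agent.S18.Haupt9 (tZ tNum tZ_eq constantCoeff_tNum j_t j3_t j9_t)

noncomputable section

section Ring

variable (R : Type*) [CommRing R]

/-- the Hauptmodul `t₉ = q⁻¹ - 3 + 5 q² - …` with coefficients in `R` -/
def t9C : LaurentSeries R := coeffMap (Int.castRingHom R) tZ

/-- the Hauptmodul `t₉` of `Γ₀(9)` in `ℚ((q))` -/
abbrev t9 : LaurentSeries ℚ := t9C ℚ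

variable {R} in
theorem coeffMap_t9C {S : Type*} [CommRing S] (f : R →+* S) : coeffMap f (t9C R) = t9C S := by
  rw [t9C, coeffMap_coeffMap, RingHom.ext_int (f.comp (Int.castRingHom R)) (Int.castRingHom S)]
  rfl

theorem t9C_int : t9C ℤ = tZ := by
  rw [t9C, RingHom.ext_int (Int.castRingHom ℤ) (RingHom.id ℤ), coeffMap_id]

/-- `t₉ = q⁻¹ · (1 + …)` with an integral power series `tNum` of constant term `1`. -/
theorem t9C_eq : t9C R =
    HahnSeries.single (-1 : ℤ) 1 * HahnSeries.ofPowerSeries ℤ R (tNum.map (Int.castRingHom R)) := by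
  rw [t9C, tZ_eq, map_mul, coeffMap_single, map_one, coeffMap_ofPowerSeries]

/-- **`j t⁹ (t² + 9t + 27) = (t + 9)³ (t³ + 243t² + 2187t + 6561)³` over any coefficient ring.** -/
theorem jqModC_mul9 :
    jqModC R * (t9C R ^ 9 * (t9C R ^ 2 + 9 * t9C R + 27)) =
      (t9C R + 9) ^ 3 * (t9C R ^ 3 + 243 * t9C R ^ 2 + 2187 * t9C R + 6561) ^ 3 := by
  have h := congrArg (coeffMap (Int.castRingHom R)) j_t
  simpa only [map_mul, map_pow, map_add, map_ofNat, coeffMap_jqModC, t9C] using h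

/-- **`j(q³) t³ (t² + 9t + 27)³ = (t + 9)³ (t³ + 3t² + 27t + 81)³` over any coefficient ring.** -/
theorem jqModC3_mul :
    qExpand R 3 (jqModC R) * (t9C R ^ 3 * (t9C R ^ 2 + 9 * t9C R + 27) ^ 3) =
      (t9C R + 9) ^ 3 * (t9C R ^ 3 + 3 * t9C R ^ 2 + 27 * t9C R + 81) ^ 3 := by
  have h := congrArg (coeffMap (Int.castRingHom R)) j3_t
  simpa only [map_mul, map_pow, map_add, map_ofNat, coeffMap_qExpand, coeffMap_jqModC, t9C]
    using h

/-- **`j(q⁹) t (t² + 9t + 27) = (t + 3)³ (t³ + 9t² + 27t + 3)³` over any coefficient ring.** -/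
theorem jqModC9_mul :
    qExpand R 9 (jqModC R) * (t9C R * (t9C R ^ 2 + 9 * t9C R + 27)) =
      (t9C R + 3) ^ 3 * (t9C R ^ 3 + 9 * t9C R ^ 2 + 27 * t9C R + 3) ^ 3 := by
  have h := congrArg (coeffMap (Int.castRingHom R)) j9_t
  simpa only [map_mul, map_pow, map_add, map_ofNat, coeffMap_qExpand, coeffMap_jqModC, t9C]
    using h

/-- the leading coefficient of `t₉` -/
theorem coeff_t9C_neg_one : (t9C R).coeff (-1 : ℤ) = 1 := by
  rw [t9C, coeffMap_coeff, Haupt9.coeff_tZ_neg_one, map_one]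

theorem coeff_t9C_of_lt {k : ℤ} (hk : k < -1) : (t9C R).coeff k = 0 := by
  rw [t9C, coeffMap_coeff, Haupt9.coeff_tZ_of_lt hk, map_zero]

theorem t9C_ne_zero [Nontrivial R] : t9C R ≠ 0 := fun h => by
  have := coeff_t9C_neg_one R
  rw [h] at this
  simp at this

/-- `order t₉ = -1` -/
theorem order_t9C [Nontrivial R] : (t9C R).order = -1 := by
  refine le_antisymm ?_ ?_
  · exact HahnSeries.order_le_of_coeff_ne_zero (by rw [coeff_t9C_neg_one]; exact one_ne_zero)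
  · by_contra hlt
    rw [not_le] at hlt
    exact t9C_ne_zero R (HahnSeries.coeff_order_eq_zero.mp (coeff_t9C_of_lt R hlt))

theorem natCast_eq_single (n : ℕ) :
    (n : LaurentSeries R) = HahnSeries.single (0 : ℤ) (n : R) := by
  have h := map_natCast (HahnSeries.C : R →+* LaurentSeries R) n
  rw [← h]
  rfl

theorem coeff_natCast_mul (n : ℕ) (x : LaurentSeries R) (k : ℤ) :
    ((n : LaurentSeries R) * x).coeff k = n * x.coeff k := by
  rw [natCast_eq_single, HahnSeries.coeff_single_mul, sub_zero]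

theorem coeff_natCast_of_ne (n : ℕ) {k : ℤ} (hk : k ≠ 0) : ((n : LaurentSeries R)).coeff k = 0 := by
  rw [natCast_eq_single, HahnSeries.coeff_single_of_ne hk]

/-- the leading coefficient of `t₉ ^ n` -/
theorem coeff_t9C_pow (n : ℕ) : (t9C R ^ n).coeff (-(n : ℤ)) = 1 := by
  rw [t9C_eq, mul_pow, HahnSeries.single_pow, one_pow, ← map_pow, HahnSeries.coeff_single_mul,
    one_mul, ← map_pow]
  have h0 : (-(n : ℤ) - n • (-1 : ℤ)) = ((0 : ℕ) : ℤ) := by
    simp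
  rw [h0, HahnSeries.ofPowerSeries_apply_coeff, PowerSeries.coeff_map,
    PowerSeries.coeff_zero_eq_constantCoeff_apply, map_pow, constantCoeff_tNum, one_pow, map_one]

theorem coeff_t9C_pow_of_lt (n : ℕ) {k : ℤ} (hk : k < -(n : ℤ)) : (t9C R ^ n).coeff k = 0 := by
  rw [t9C_eq, mul_pow, HahnSeries.single_pow, one_pow, ← map_pow, HahnSeries.coeff_single_mul,
    one_mul]
  refine ofPowerSeries_coeff_of_neg _ ?_
  have : n • (-1 : ℤ) = -(n : ℤ) := by simp
  rw [this]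
  omega

theorem t9C_add_natCast_ne_zero [Nontrivial R] (n : ℕ) : t9C R + (n : LaurentSeries R) ≠ 0 :=
  fun h => by
  have h1 := congrArg (fun x : LaurentSeries R => x.coeff (-1 : ℤ)) h
  simp only [HahnSeries.coeff_add, coeff_t9C_neg_one, coeff_natCast_of_ne R n (by norm_num : (-1 : ℤ) ≠ 0),
    add_zero, HahnSeries.coeff_zero] at h1
  exact one_ne_zero h1

/-- `t₉² + 9 t₉ + 27 ≠ 0` (its coefficient of `q⁻²` is `1`) -/
theorem coeff_quad_neg_two : (t9C R ^ 2 + 9 * t9C R + 27).coeff (-2 : ℤ) = 1 := by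
  have h1 : (t9C R ^ 2).coeff (-2 : ℤ) = 1 := by
    have := coeff_t9C_pow R 2
    simpa using this
  have h2 : ((9 : LaurentSeries R) * t9C R).coeff (-2 : ℤ) = 0 := by
    have := coeff_natCast_mul R 9 (t9C R) (-2)
    rw [coeff_t9C_of_lt R (by norm_num), mul_zero] at this
    simpa using this
  have h3 : ((27 : LaurentSeries R)).coeff (-2 : ℤ) = 0 := by
    have := coeff_natCast_of_ne R 27 (by norm_num : (-2 : ℤ) ≠ 0)
    simpa using this
  rw [HahnSeries.coeff_add, HahnSeries.coeff_add, h1, h2, h3, add_zero, add_zero]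

theorem t9C_quad_ne_zero [Nontrivial R] : t9C R ^ 2 + 9 * t9C R + 27 ≠ 0 := fun h => by
  have := coeff_quad_neg_two R
  rw [h] at this
  simp at this

end Ring

section Field

open IntermediateField

variable (k : Type*) [Field k]

theorem jqModC_mem_adjoin_t9C : jqModC k ∈ k⟮t9C k⟯ := by
  have ht : t9C k ∈ k⟮t9C k⟯ := mem_adjoin_simple_self k (t9C k)
  have hq : t9C k ^ 2 + 9 * t9C k + 27 ∈ k⟮t9C k⟯ :=
    add_mem (add_mem (pow_mem ht 2) (mul_mem (ofNat_mem _ 9) ht)) (ofNat_mem _ 27)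
  have hden : t9C k ^ 9 * (t9C k ^ 2 + 9 * t9C k + 27) ≠ 0 :=
    mul_ne_zero (pow_ne_zero _ (t9C_ne_zero k)) (t9C_quad_ne_zero k)
  have h : jqModC k = (t9C k + 9) ^ 3 *
      (t9C k ^ 3 + 243 * t9C k ^ 2 + 2187 * t9C k + 6561) ^ 3 /
      (t9C k ^ 9 * (t9C k ^ 2 + 9 * t9C k + 27)) := by
    rw [eq_div_iff hden]; exact jqModC_mul9 k
  rw [h]
  exact div_mem (mul_mem (pow_mem (add_mem ht (ofNat_mem _ 9)) 3)
    (pow_mem (add_mem (add_mem (add_mem (pow_mem ht 3) (mul_mem (ofNat_mem _ 243) (pow_mem ht 2)))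
      (mul_mem (ofNat_mem _ 2187) ht)) (ofNat_mem _ 6561)) 3))
    (mul_mem (pow_mem ht 9) hq)

theorem jqModC3_mem_adjoin_t9C : qExpand k 3 (jqModC k) ∈ k⟮t9C k⟯ := by
  have ht : t9C k ∈ k⟮t9C k⟯ := mem_adjoin_simple_self k (t9C k)
  have hq : t9C k ^ 2 + 9 * t9C k + 27 ∈ k⟮t9C k⟯ :=
    add_mem (add_mem (pow_mem ht 2) (mul_mem (ofNat_mem _ 9) ht)) (ofNat_mem _ 27)
  have hden : t9C k ^ 3 * (t9C k ^ 2 + 9 * t9C k + 27) ^ 3 ≠ 0 :=
    mul_ne_zero (pow_ne_zero _ (t9C_ne_zero k)) (pow_ne_zero _ (t9C_quad_ne_zero k))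
  have h : qExpand k 3 (jqModC k) = (t9C k + 9) ^ 3 *
      (t9C k ^ 3 + 3 * t9C k ^ 2 + 27 * t9C k + 81) ^ 3 /
      (t9C k ^ 3 * (t9C k ^ 2 + 9 * t9C k + 27) ^ 3) := by
    rw [eq_div_iff hden]; exact jqModC3_mul k
  rw [h]
  exact div_mem (mul_mem (pow_mem (add_mem ht (ofNat_mem _ 9)) 3)
    (pow_mem (add_mem (add_mem (add_mem (pow_mem ht 3) (mul_mem (ofNat_mem _ 3) (pow_mem ht 2)))
      (mul_mem (ofNat_mem _ 27) ht)) (ofNat_mem _ 81)) 3))
    (mul_mem (pow_mem ht 3) (pow_mem hq 3))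

theorem jqModC9_mem_adjoin_t9C : qExpand k 9 (jqModC k) ∈ k⟮t9C k⟯ := by
  have ht : t9C k ∈ k⟮t9C k⟯ := mem_adjoin_simple_self k (t9C k)
  have hq : t9C k ^ 2 + 9 * t9C k + 27 ∈ k⟮t9C k⟯ :=
    add_mem (add_mem (pow_mem ht 2) (mul_mem (ofNat_mem _ 9) ht)) (ofNat_mem _ 27)
  have hden : t9C k * (t9C k ^ 2 + 9 * t9C k + 27) ≠ 0 :=
    mul_ne_zero (t9C_ne_zero k) (t9C_quad_ne_zero k)
  have h : qExpand k 9 (jqModC k) = (t9C k + 3) ^ 3 *
      (t9C k ^ 3 + 9 * t9C k ^ 2 + 27 * t9C k + 3) ^ 3 /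
      (t9C k * (t9C k ^ 2 + 9 * t9C k + 27)) := by
    rw [eq_div_iff hden]; exact jqModC9_mul k
  rw [h]
  exact div_mem (mul_mem (pow_mem (add_mem ht (ofNat_mem _ 3)) 3)
    (pow_mem (add_mem (add_mem (add_mem (pow_mem ht 3) (mul_mem (ofNat_mem _ 9) (pow_mem ht 2)))
      (mul_mem (ofNat_mem _ 27) ht)) (ofNat_mem _ 3)) 3))
    (mul_mem ht hq)

/-- **`F_k(9) = k(j̄(q), j̄(q³), j̄(q⁹)) ≤ k(t̄₉)`** for every field `k`. -/
theorem fullC_nine_le_adjoin_t9C : modularFunctionFieldFullC k 9 ≤ k⟮t9C k⟯ := by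
  rw [modularFunctionFieldFullC, adjoin_le_iff]
  rintro x ⟨d, hne, hd, rfl⟩
  have hd9 : d ≤ 9 := Nat.le_of_dvd (by norm_num) hd
  have hd0 : d ≠ 0 := NeZero.ne d
  interval_cases d
  · exact absurd rfl hd0
  · rw [qExpand_one_apply]; exact jqModC_mem_adjoin_t9C k
  · exact absurd hd (by norm_num)
  · exact jqModC3_mem_adjoin_t9C k
  · exact absurd hd (by norm_num)
  · exact absurd hd (by norm_num)
  · exact absurd hd (by norm_num)
  · exact absurd hd (by norm_num)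
  · exact absurd hd (by norm_num)
  · exact jqModC9_mem_adjoin_t9C k

end Field

end

end Fermat.Agent.S18.Haupt.Level9
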