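/-
S18, block D, leaf (D4-9 glue), part 2 (helper13): the Hauptmodul `t₉` of `Γ₀(9)` inside the Gauss
valuation subring.  Level-9 twin of `Haupt/Level4Gauss.lean`.  Everything that needs the
membership `t₉ ∈ F_9 = modularFunctionFieldFull 9` takes it as the hypothesis `hmem`
(helper21's `Haupt9` field file supplies it).  For any field `K` of characteristic `0`,
`t9C K = coeffEmb K t₉` lies in `laurentBaseChange K (modularFunctionFieldFull M)` (`9 ∣ M`), and
for every Gauss-type pair `(O', ρ)` (helper18's `IsGaussRed`): `t₉ ∈ O'`, `ρ t₉ = t9C k`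
(`= q⁻¹ + …`), `t₉` and `t₉² + 9 t₉ + 27` are units of `O'`.
-/
import Mathlib
import Fermat.Agent.S18.Haupt.Level9ModC
import Fermat.Agent.S18.Gauss.Residue

set_option autoImplicit false

namespace Fermat.Agent.S18.Haupt.Level9

open ModularCurve Fermat.Agent.S18.Gauss.Residue

noncomputable section

section CharZero

variable (K : Type*) [Field K] [Algebra ℚ K]

theorem t9C_eq_coeffEmb : t9C K = coeffEmb K t9 :=
  (coeffMap_t9C (algebraMap ℚ K)).symm

/-- `t₉ ∈ F_M ⊗ K` for `9 ∣ M` -/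
theorem t9C_mem_laurentBaseChange (hmem : t9 ∈ modularFunctionFieldFull 9)
    (M : ℕ) [NeZero M] (h9 : 9 ∣ M) :
    t9C K ∈ laurentBaseChange K (modularFunctionFieldFull M) := by
  rw [t9C_eq_coeffEmb]
  exact coeffEmb_mem_laurentBaseChange K (full_degeneracy_le h9 hmem)

end CharZero

section Gauss

variable {K : Type*} [Field K] {A : ValuationSubring K} {k : Type*} [Field k] {π : A →+* k}
  {F : IntermediateField K (LaurentSeries K)} {O' : ValuationSubring F}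
  {ρ : O' →+* LaurentSeries k}

theorem coeffMap_subtype_t9C (A : ValuationSubring K) : coeffMap A.subtype (t9C A) = t9C K :=
  coeffMap_t9C _

theorem coeffMap_pi_t9C (π : A →+* k) : coeffMap π (t9C A) = t9C k := coeffMap_t9C _

variable (hG : IsGaussRed A π F O' ρ) (ht : t9C K ∈ F)
include hG

/-- `t₉` is Gauss-integral. -/
theorem t9C_mem_of_isGaussRed : (⟨t9C K, ht⟩ : F) ∈ O' := by
  have hy : coeffMap A.subtype (t9C A) ∈ F := by rw [coeffMap_subtype_t9C]; exact ht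
  have h := hG.mem_of_integral (t9C A) hy
  have e : (⟨coeffMap A.subtype (t9C A), hy⟩ : F) = ⟨t9C K, ht⟩ :=
    Subtype.ext (coeffMap_subtype_t9C A)
  rwa [e] at h

/-- the reduction of `t₉` is `t9C k = q⁻¹ + …`. -/
theorem map_t9C_of_isGaussRed :
    ρ ⟨⟨t9C K, ht⟩, t9C_mem_of_isGaussRed hG ht⟩ = t9C k := by
  have hy : coeffMap A.subtype (t9C A) ∈ F := by rw [coeffMap_subtype_t9C]; exact ht
  have hmem := hG.mem_of_integral (t9C A) hy
  have h := hG.map_integral (t9C A) hy hmem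
  rw [coeffMap_pi_t9C π] at h
  rw [← h]
  rfl

/-- `t₉` is a Gauss unit. -/
theorem valuation_t9C_of_isGaussRed : O'.valuation (⟨t9C K, ht⟩ : F) = 1 := by
  have h := hG.valuation_eq_one_of_map_ne_zero
    (x := ⟨⟨t9C K, ht⟩, t9C_mem_of_isGaussRed hG ht⟩)
    (by rw [map_t9C_of_isGaussRed hG ht]; exact t9C_ne_zero k)
  exact h

/-- `t₉ + n` is a Gauss unit for every `n : ℕ`. -/
theorem valuation_t9C_add_of_isGaussRed (n : ℕ) :
    O'.valuation ((⟨t9C K, ht⟩ : F) + (n : F)) = 1 := by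
  have hn : (n : F) ∈ O' := natCast_mem _ n
  have hmem : (⟨t9C K, ht⟩ : F) + (n : F) ∈ O' := add_mem (t9C_mem_of_isGaussRed hG ht) hn
  have hρ : ρ ⟨(⟨t9C K, ht⟩ : F) + (n : F), hmem⟩ = t9C k + (n : LaurentSeries k) := by
    have e : (⟨(⟨t9C K, ht⟩ : F) + (n : F), hmem⟩ : O') =
        ⟨⟨t9C K, ht⟩, t9C_mem_of_isGaussRed hG ht⟩ + (n : O') := rfl
    rw [e, map_add, map_t9C_of_isGaussRed hG ht, map_natCast]
  exact hG.valuation_eq_one_of_map_ne_zero (x := ⟨_, hmem⟩)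
    (by rw [hρ]; exact t9C_add_natCast_ne_zero k n)

/-- `t₉² + 9 t₉ + 27` is a Gauss unit. -/
theorem valuation_t9C_quad_of_isGaussRed :
    O'.valuation ((⟨t9C K, ht⟩ : F) ^ 2 + 9 * (⟨t9C K, ht⟩ : F) + 27) = 1 := by
  have h9 : (9 : F) ∈ O' := ofNat_mem _ 9
  have h27 : (27 : F) ∈ O' := ofNat_mem _ 27
  have htm := t9C_mem_of_isGaussRed hG ht
  have hmem : (⟨t9C K, ht⟩ : F) ^ 2 + 9 * (⟨t9C K, ht⟩ : F) + 27 ∈ O' :=
    add_mem (add_mem (pow_mem htm 2) (mul_mem h9 htm)) h27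
  have hρ : ρ ⟨_, hmem⟩ = t9C k ^ 2 + 9 * t9C k + 27 := by
    have e : (⟨(⟨t9C K, ht⟩ : F) ^ 2 + 9 * (⟨t9C K, ht⟩ : F) + 27, hmem⟩ : O') =
        (⟨⟨t9C K, ht⟩, htm⟩ : O') ^ 2 + 9 * (⟨⟨t9C K, ht⟩, htm⟩ : O') + 27 := rfl
    rw [e, map_add, map_add, map_mul, map_pow, map_t9C_of_isGaussRed hG ht, map_ofNat, map_ofNat]
  exact hG.valuation_eq_one_of_map_ne_zero (x := ⟨_, hmem⟩)
    (by rw [hρ]; exact t9C_quad_ne_zero k)

end Gauss

end

end Fermat.Agent.S18.Haupt.Level9
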