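/-
S18, block D, leaf (D4-9 glue), part 3 (helper13): the Gauss-side facts about the Hauptmodul of
`Γ₀(9)` stated for helper21's CANONICAL `Haupt9.t9C` and with the membership
`t₉ ∈ modularFunctionFieldFull 9` discharged (`Haupt9.Degree.t9_mem_full`).
Level-9 twin of `Haupt/Level4Gauss.lean`; `Level9.t9C` (from `Haupt/Level9ModC.lean`) and
`Haupt9.t9C` are the same series.
-/
import Mathlib
import Fermat.Agent.S18.Haupt.Level9Gauss
import Fermat.Agent.S18.Haupt9.Degree

set_option autoImplicit false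

namespace Fermat.Agent.S18.Haupt.Level9Final

open ModularCurve Fermat.Agent.S18.Gauss.Residue

noncomputable section

/-- the two spellings of `t₉` over a ring `R` agree -/
theorem t9C_eq_haupt9 (R : Type*) [CommRing R] : Level9.t9C R = Haupt9.t9C R :=
  (Haupt9.t9C_eq_coeffMap R).symm

theorem t9_eq_haupt9 : Level9.t9 = Haupt9.t9 := t9C_eq_haupt9 ℚ

theorem t9_mem_full : Level9.t9 ∈ modularFunctionFieldFull 9 := by
  rw [t9_eq_haupt9]; exact Haupt9.Degree.t9_mem_full

section CharZero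

variable (K : Type*) [Field K] [Algebra ℚ K]

theorem t9C_eq_coeffEmb : Haupt9.t9C K = coeffEmb K Haupt9.t9 := by
  rw [← t9C_eq_haupt9, ← t9_eq_haupt9]; exact Level9.t9C_eq_coeffEmb K

/-- **`t₉ ∈ F_M ⊗ K` for `9 ∣ M`** (unconditional) -/
theorem t9C_mem_laurentBaseChange (M : ℕ) [NeZero M] (h9 : 9 ∣ M) :
    Haupt9.t9C K ∈ laurentBaseChange K (modularFunctionFieldFull M) := by
  rw [← t9C_eq_haupt9]
  exact Level9.t9C_mem_laurentBaseChange K t9_mem_full M h9

end CharZero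

section Gauss

variable {K : Type*} [Field K] {A : ValuationSubring K} {k : Type*} [Field k] {π : A →+* k}
  {F : IntermediateField K (LaurentSeries K)} {O' : ValuationSubring F}
  {ρ : O' →+* LaurentSeries k}

variable (hG : IsGaussRed A π F O' ρ) (ht : Haupt9.t9C K ∈ F)
include hG

omit hG in
theorem mem_of_mem (ht : Haupt9.t9C K ∈ F) : Level9.t9C K ∈ F := by
  rw [t9C_eq_haupt9]; exact ht

omit hG in
theorem subtype_eq (ht : Haupt9.t9C K ∈ F) :
    (⟨Level9.t9C K, mem_of_mem ht⟩ : F) = ⟨Haupt9.t9C K, ht⟩ :=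
  Subtype.ext (t9C_eq_haupt9 K)

/-- `t₉` is Gauss-integral. -/
theorem t9C_mem_of_isGaussRed : (⟨Haupt9.t9C K, ht⟩ : F) ∈ O' := by
  have h := Level9.t9C_mem_of_isGaussRed hG (mem_of_mem ht)
  rwa [subtype_eq ht] at h

/-- the reduction of `t₉` is `t9C k = q⁻¹ + …`. -/
theorem map_t9C_of_isGaussRed :
    ρ ⟨⟨Haupt9.t9C K, ht⟩, t9C_mem_of_isGaussRed hG ht⟩ = Haupt9.t9C k := by
  have h := Level9.map_t9C_of_isGaussRed hG (mem_of_mem ht)
  rw [t9C_eq_haupt9 k] at h
  rw [← h]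
  congr 1
  exact Subtype.ext (subtype_eq ht).symm

/-- `t₉` is a Gauss unit. -/
theorem valuation_t9C_of_isGaussRed : O'.valuation (⟨Haupt9.t9C K, ht⟩ : F) = 1 := by
  have h := Level9.valuation_t9C_of_isGaussRed hG (mem_of_mem ht)
  rwa [subtype_eq ht] at h

/-- `t₉ + n` is a Gauss unit for every `n : ℕ`. -/
theorem valuation_t9C_add_of_isGaussRed (n : ℕ) :
    O'.valuation ((⟨Haupt9.t9C K, ht⟩ : F) + (n : F)) = 1 := by
  have h := Level9.valuation_t9C_add_of_isGaussRed hG (mem_of_mem ht) n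
  rwa [subtype_eq ht] at h

/-- `t₉² + 9 t₉ + 27` is a Gauss unit (in every residue characteristic). -/
theorem valuation_t9C_quad_of_isGaussRed :
    O'.valuation ((⟨Haupt9.t9C K, ht⟩ : F) ^ 2 + 9 * (⟨Haupt9.t9C K, ht⟩ : F) + 27) = 1 := by
  have h := Level9.valuation_t9C_quad_of_isGaussRed hG (mem_of_mem ht)
  rwa [subtype_eq ht] at h

end Gauss

end

end Fermat.Agent.S18.Haupt.Level9Final
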